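/-
S35 (cluster T), assembly part A2 (helper43): the EXPLICIT eigen-class.

For an eigenvector `x₀ ∈ 𝒪 ⊗ Hom_par(Γ₀(M), ℤ)` of the Hecke character `χ` the classes
`newClass M p 𝒪 x₀ n := (𝒪 ⊗ κ_{pⁿ}) x₀ ∈ 𝒪 ⊗ J₀(M)(ℚ̄)[pⁿ]`  (`κ = F3Deg.kappaC`, the canonical
Kummer map) form a compatible eigen-family, not identically zero: the three hypotheses
`hx0`, `hcompat`, `heig` of `S35.exists_frobLattice_quartic`.

Kernel conditions: if `u ∘ κ_{pⁿ} = v n ∘ t` with `(𝒪 ⊗ t) x₀ = 0`, then `(𝒪 ⊗ u) (x n) = 0`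
(`newClass_ker`): the hypothesis `hux`.
-/
import Mathlib
import Fermat.Agent.F3.I2.Deg.Canon
import Fermat.Agent.F3.EigenPadic.Closed

set_option autoImplicit false
set_option linter.unusedSectionVars false

noncomputable section

namespace Fermat.Agent.S35

open CongruenceSubgroup ModularCurve ModularCurve.Period Fermat.Agent.F3EC IsLocalRing
open Fermat.Agent.F3Deg
open scoped TensorProduct

variable (M : ℕ) [NeZero M] (p : ℕ) (O : Type*) [CommRing O]

/-- the explicit eigen-class `x n = (O ⊗ κ_{pⁿ}) x₀`. -/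
def newClass (x₀ : O ⊗[ℤ] HomPar M) (n : ℕ) : O ⊗[ℤ] Fermat.Agent.F3.Jtors M (p ^ n) :=
  (kappaC M (p ^ n)).baseChange O x₀

variable {M p O}

theorem newClass_def (x₀ : O ⊗[ℤ] HomPar M) (n : ℕ) :
    newClass M p O x₀ n = (kappaC M (p ^ n)).baseChange O x₀ := rfl

/-- `hx0`: the eigen-class of a nonzero vector is not identically zero. -/
theorem newClass_ne_zero [IsDomain O] [WfDvdMonoid O] [Module.Flat ℤ O] (hp : p.Prime)
    (hpu : ¬ IsUnit (p : O)) {x₀ : O ⊗[ℤ] HomPar M} (hx₀ : x₀ ≠ 0) :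
    ∃ n, newClass M p O x₀ n ≠ 0 := by
  by_contra hcon
  push Not at hcon
  apply hx₀
  exact Fermat.Agent.F3EP.eq_zero_of_forall_pow_smul hpu x₀ fun n =>
    Fermat.Agent.F3EP.exists_eq_smul_of_baseChange_eq_zero O (kappaC M (p ^ n)) (p ^ n)
      (fun c hc => by
        obtain ⟨c', hc'⟩ := kappaC_ker (pow_pos hp.pos n) hc
        exact ⟨c', by rw [hc', natCast_zsmul]⟩) x₀ (hcon n)

/-- `hcompat`. -/
theorem newClass_compat (hp : p.Prime) (x₀ : O ⊗[ℤ] HomPar M) (n : ℕ) :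
    (Fermat.Agent.S30.mulPTors M p n).baseChange O (newClass M p O x₀ (n + 1)) =
      newClass M p O x₀ n := by
  rw [newClass_def, newClass_def, ← LinearMap.comp_apply, ← LinearMap.baseChange_comp]
  congr 2
  ext c
  rw [LinearMap.comp_apply, Fermat.Agent.S30.mulPTors_coe,
    Fermat.Agent.F3EP.coe_kappa_congr (kappaC M) (pow_succ' p n) c]
  exact kappaC_compat (pow_pos hp.pos n) hp.pos c

/-- `heig`. -/
theorem newClass_eig {a : O} (ℓ : Nat.Primes) (hℓM : ¬ (ℓ : ℕ) ∣ M) {x₀ : O ⊗[ℤ] HomPar M}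
    (hx : (heckeHom M ℓ).baseChange O x₀ = a • x₀) (n : ℕ) :
    (Fermat.Agent.F3.heckeTors M (p ^ n) ℓ).baseChange O (newClass M p O x₀ n) =
      a • newClass M p O x₀ n := by
  have hcomm : (Fermat.Agent.F3.heckeTors M (p ^ n) ℓ).baseChange O ∘ₗ
      (kappaC M (p ^ n)).baseChange O =
      (kappaC M (p ^ n)).baseChange O ∘ₗ (heckeHom M ℓ).baseChange O := by
    rw [← LinearMap.baseChange_comp, ← LinearMap.baseChange_comp]
    congr 1
    ext c
    exact congrArg Subtype.val (kappaC_hecke (p ^ n) ℓ hℓM c).symm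
  have h1 := congrArg (fun f => f x₀) hcomm
  simp only [LinearMap.comp_apply] at h1
  rw [newClass_def, h1, hx, map_smul]

/-- `hux`, general form: a kernel condition `u` on `J₀(M)` that factors on the image of `κ`
through a map `t` on `Hom_par` killing `x₀` kills the eigen-class. -/
theorem newClass_ker {J' H : Type*} [AddCommGroup J'] [AddCommGroup H]
    (u : JZero M →ₗ[ℤ] J') (t : HomPar M →ₗ[ℤ] H) (n : ℕ) (v : H →ₗ[ℤ] J')
    (h : ∀ c : HomPar M,
      u ((kappaC M (p ^ n) c : Fermat.Agent.F3.Jtors M (p ^ n)) : JZero M) = v (t c))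
    {x₀ : O ⊗[ℤ] HomPar M} (ht : t.baseChange O x₀ = 0) :
    (u ∘ₗ (Fermat.Agent.F3.Jtors M (p ^ n)).subtype).baseChange O (newClass M p O x₀ n) = 0 := by
  rw [newClass_def, ← LinearMap.comp_apply, ← LinearMap.baseChange_comp]
  have e : (u ∘ₗ (Fermat.Agent.F3.Jtors M (p ^ n)).subtype) ∘ₗ kappaC M (p ^ n) = v ∘ₗ t := by
    ext c
    exact h c
  rw [e, LinearMap.baseChange_comp, LinearMap.comp_apply, ht, map_zero]

end Fermat.Agent.S35
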