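import Fermat.Agent.F3.I2.Deg.ALPushAt
import Fermat.Agent.Lib.BadRed.Bridge.NewQuartic
import Fermat.Agent.S35.Targets

set_option autoImplicit false
set_option linter.style.haveILetI false
set_option linter.unusedSectionVars false
set_option linter.unusedVariables false

/-!
# S35 (cluster T): the level-`M` layer of the `q`-new part  (helper36)

For a level `M` and a prime `q ‖ M` write `M = N₁ q`.  A `NewDatum M` packages `q`, `N₁`, the
equation `M = N₁ * q` and Atkin–Lehner data `D` with `D.Q = q`, `D.R = N₁`.  For a datum `d`: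

* `d.degA, d.degB : J₀(M) →+ J₀(N₁)`  : `α_*` and `α_* ∘ w_*` (with the level cast);
* `d.corA, d.corB : HomPar M →ₗ[ℤ] HomPar N₁` : the two corestrictions of cluster L;
* `degA_smul`, `degB_smul`   : Galois equivariance;
* `degA_kappaC`, `degB_kappaC` : `degA (κ_n c) = κ_n (corA c)`, `degB (κ_n c) = κ_n (corB c)`;
* `newVector`                : eigenvectors of a newform of level `M` are killed by `corA`, `corB`;
* `frobQuartic`              : the quartic identity on `ker degA ∩ ker degB ∩ J₀(M)[n]`.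

`newU M : J₀(M) →ₗ[ℤ] ∏_{q ‖ M} J₀(M/q)²` is the product of the `(degA, degB)`: the kernel map
`u` of `S35/LatticeCond.lean`.
-/

noncomputable section

namespace Fermat.Agent.S35

open ModularCurve AlgebraicCurve CongruenceSubgroup
open Fermat.Agent.F3 Fermat.Agent.F3G Fermat.Agent.F3I2 Fermat.Agent.F3EC Fermat.Agent.F3Deg
  Fermat.Agent.F3DegP Fermat.Agent.F3DegW Fermat.Agent.LDeg Fermat.Agent.BadRed
open Fermat.Agent.AtkinLehner (ALData)
open scoped TensorProduct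

local notation "Qb" => AlgebraicClosure ℚ

/-! ### level casts -/

/-- the level cast on `J₀`. -/
def castJ {M M' : ℕ} (h : M = M') : JZero M →+ JZero M' := by
  subst h
  exact AddMonoidHom.id _

@[simp] theorem castJ_rfl {M : ℕ} : castJ (rfl : M = M) = AddMonoidHom.id _ := rfl

/-- the level cast on `Hom_par(Γ₀(M), ℤ)`. -/
def castH {M M' : ℕ} (h : M = M') : HomPar M →ₗ[ℤ] HomPar M' := by
  subst h
  exact LinearMap.id

@[simp] theorem castH_rfl {M : ℕ} : castH (rfl : M = M) = LinearMap.id := rfl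

section At

variable {M N₁ q : ℕ} [NeZero M] [NeZero N₁] [NeZero q]

/-- `α_*` at level `M = N₁ q`. -/
def pushAlphaAt (h : M = N₁ * q) : JZero M →+ JZero N₁ := (pushAlpha N₁ q).comp (castJ h)

/-- the corestriction `β₁` at level `M = N₁ q`. -/
def coresParAt (h : M = N₁ * q) : HomPar M →ₗ[ℤ] HomPar N₁ := (coresPar N₁ q).comp (castH h)

/-- the corestriction `β₂` at level `M = N₁ q`. -/
def coresParDAt (h : M = N₁ * q) : HomPar M →ₗ[ℤ] HomPar N₁ := (coresParD N₁ q).comp (castH h)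

theorem pushAlphaAt_smul (h : M = N₁ * q) (σ : Qb ≃ₐ[ℚ] Qb) (y : JZero M) :
    pushAlphaAt h (σ • y) = σ • pushAlphaAt h y := by
  subst h
  exact pushAlpha_smul N₁ q σ y

theorem pushAlphaAt_kappaC (h : M = N₁ * q) (hq : q.Prime) (hqN : ¬ q ∣ N₁) (n : ℕ)
    (c : HomPar M) :
    pushAlphaAt h ((kappaC M n c : Jtors M n) : JZero M) =
      ((kappaC N₁ n (coresParAt h c) : Jtors N₁ n) : JZero N₁) := by
  subst h
  exact kappaC_pushAlpha hq hqN n c

theorem pushAlphaAt_pushWAt_kappaC (h : M = N₁ * q) (hq : q.Prime) (hqN : ¬ q ∣ N₁)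
    (D : ALData) (hQ : D.Q = q) (hR : D.R = N₁) (hM : M = D.Q * D.R) (n : ℕ) (c : HomPar M) :
    pushAlphaAt h (pushWAt D hM ((kappaC M n c : Jtors M n) : JZero M)) =
      ((kappaC N₁ n (coresParDAt h c) : Jtors N₁ n) : JZero N₁) := by
  subst h
  exact pushAlpha_pushWAt_kappaC D hq hqN hQ hR hM n c

/-- **WP C at level `M = N₁ q`.** -/
theorem newVector_cast (h : M = N₁ * q) (hNV : NewVectorAt N₁ q)
    (g : CuspForm (Gamma0 M) 2) (hg : g.IsNewform)
    (S : Finset ℕ) (hS : ∀ r : ℕ, r.Prime → r ∣ M → r ∈ S)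
    (O : Type) [CommRing O] [IsDomain O] [CharZero O]
    (chig : CuspForm.heckeAlgebra M 2 (↑S : Set ℕ) →+* ℂ)
    (hchig : ∀ (ℓ : ℕ) (hℓ : ℓ.Prime) (hℓM : ¬ ℓ ∣ M) (hℓS : ℓ ∉ (↑S : Set ℕ)),
      chig (CuspForm.heckeAlgebra.T hℓ hℓM hℓS) = ModularFormClass.qCoeff g ℓ)
    (iota : chig.range →+* O) (x : O ⊗[ℤ] HomPar M)
    (hx : ∀ (ℓ : ℕ) (hℓ : ℓ.Prime) (hℓM : ¬ ℓ ∣ M) (hℓS : ℓ ∉ (↑S : Set ℕ)),
      (heckeHom M ⟨ℓ, hℓ⟩).baseChange O x =
        (iota.comp chig.rangeRestrict) (CuspForm.heckeAlgebra.T hℓ hℓM hℓS) • x) :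
    (coresParAt h).baseChange O x = 0 ∧ (coresParDAt h).baseChange O x = 0 := by
  subst h
  exact hNV g hg S hS O chig hchig iota x hx

/-- **the quartic identity at level `M = N₁ q`.** -/
theorem frobQuartic_cast (h : M = N₁ * q) (hq : q.Prime) (hqN : ¬ q ∣ N₁)
    (hkey : ∀ D' : ALData, AuxLevel.AuxOK D' → FrobToricKeyAt D')
    (D : ALData) (hQ : D.Q = q) (hR : D.R = N₁) (hM : M = D.Q * D.R)
    {n : ℕ} (hqn : ¬ q ∣ n)
    {A : ValuationSubring Qb} (hA : A.LiesOverPrime q)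
    {φ : Qb ≃ₐ[ℚ] Qb} (hφ : A.IsFrobeniusAt φ q)
    (y : JZero M) (hy : n • y = 0)
    (h1 : pushAlphaAt h y = 0) (h2 : pushAlphaAt h (pushWAt D hM y) = 0) :
    φ • φ • φ • φ • y - ((q ^ 2 + 1 : ℕ) : ℤ) • (φ • φ • y) + ((q ^ 2 : ℕ) : ℤ) • y = 0 := by
  subst h
  exact frobQuartic_new hq hqN hkey D hQ hR hM hqn hA hφ y hy h1 h2

end At

end Fermat.Agent.S35
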