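/-
S35 (cluster T), assembly part A3 (helper43): the kernel map `u = newU M p` of
`S35.exists_frobLattice_quartic` and its three hypotheses.

For a level `M` and a prime `p` let `NewIdx M p` be the set of primes `q ≠ p` with `q ‖ M`.
For `i : NewIdx M p` write `M = N₁ q` (`N₁ = M / q`) and choose Atkin–Lehner data `D` with
`D.Q = q`, `D.R = N₁`.

* `newU M p : J₀(M) →ₗ[ℤ] ∏_i J₀(M/q)²`, `y ↦ (α_* y, α_* w_* y)_i`;
* `newU_smul`      (`hu`)    : `ker (newU M p)` is Galois-stable;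
* `newU_newClass`  (`hux`)   : the eigen-class of a newform (`S35/EigenNew.lean`) is killed by
  `𝒪 ⊗ newU M p`;
* `newU_quartic`   (`hquart`): the quartic identity on `ker (newU M p) ∩ J₀(M)[pⁿ]`, from
  `frobQuartic_cast` (`S35/NewDatum.lean`).
-/
import Mathlib
import Fermat.Agent.S35.NewDatum
import Fermat.Agent.S35.EigenNew

set_option autoImplicit false
set_option linter.unusedSectionVars false
set_option linter.style.haveILetI false

noncomputable section

namespace Fermat.Agent.S35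

open ModularCurve AlgebraicCurve CongruenceSubgroup
open Fermat.Agent.F3 Fermat.Agent.F3G Fermat.Agent.F3I2 Fermat.Agent.F3EC Fermat.Agent.F3Deg
  Fermat.Agent.F3DegP Fermat.Agent.F3DegW Fermat.Agent.LDeg Fermat.Agent.BadRed
open Fermat.Agent.AtkinLehner (ALData)
open scoped TensorProduct

local notation "Qb" => AlgebraicClosure ℚ

/-! ### base change of products -/

section BC

variable {O : Type*} [CommRing O] {H₀ : Type*} [AddCommGroup H₀]

theorem baseChange_prod_eq_zero {H₁ H₂ : Type*} [AddCommGroup H₁] [AddCommGroup H₂]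
    (t₁ : H₀ →ₗ[ℤ] H₁) (t₂ : H₀ →ₗ[ℤ] H₂) (x : O ⊗[ℤ] H₀)
    (h₁ : t₁.baseChange O x = 0) (h₂ : t₂.baseChange O x = 0) :
    (LinearMap.prod t₁ t₂).baseChange O x = 0 := by
  have e : LinearMap.prod t₁ t₂ =
      LinearMap.inl ℤ H₁ H₂ ∘ₗ t₁ + LinearMap.inr ℤ H₁ H₂ ∘ₗ t₂ := by
    ext c <;> simp
  rw [e, LinearMap.baseChange_add, LinearMap.add_apply, LinearMap.baseChange_comp,
    LinearMap.baseChange_comp, LinearMap.comp_apply, LinearMap.comp_apply, h₁, h₂, map_zero,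
    map_zero, add_zero]

theorem baseChange_pi_eq_zero {ι : Type*} [Finite ι] {H : ι → Type*}
    [∀ i, AddCommGroup (H i)] (t : ∀ i, H₀ →ₗ[ℤ] H i) (x : O ⊗[ℤ] H₀)
    (h : ∀ i, (t i).baseChange O x = 0) :
    (LinearMap.pi t).baseChange O x = 0 := by
  classical
  haveI : Fintype ι := Fintype.ofFinite ι
  have e : LinearMap.pi t = ∑ i, LinearMap.single ℤ H i ∘ₗ t i := by
    ext c j
    simp [LinearMap.sum_apply, Finset.sum_apply]
  have e2 : (LinearMap.pi t).baseChange O =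
      ∑ i, (LinearMap.single ℤ H i ∘ₗ t i).baseChange O := by
    rw [e]
    exact map_sum (LinearMap.baseChangeHom ℤ O H₀ (∀ i, H i)) _ _
  rw [e2, LinearMap.sum_apply]
  refine Finset.sum_eq_zero fun i _ => ?_
  rw [LinearMap.baseChange_comp, LinearMap.comp_apply, h i, map_zero]

end BC

/-! ### the index set and the data -/

/-- the primes `q ≠ p` with `q ‖ M`. -/
abbrev NewIdx (M p : ℕ) : Type := {q : ℕ // q.Prime ∧ q ≠ p ∧ q ∣ M ∧ ¬ q ^ 2 ∣ M}

namespace NewIdx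

variable {M p : ℕ} [NeZero M] (i : NewIdx M p)

theorem prime : i.1.Prime := i.2.1
theorem ne_p : i.1 ≠ p := i.2.2.1
theorem dvd : i.1 ∣ M := i.2.2.2.1
theorem not_sq_dvd : ¬ i.1 ^ 2 ∣ M := i.2.2.2.2

/-- `M = (M / q) * q`. -/
theorem level_eq : M = M / i.1 * i.1 := (Nat.div_mul_cancel i.dvd).symm

theorem neZero_q : NeZero i.1 := ⟨i.prime.ne_zero⟩

theorem neZero_N : NeZero (M / i.1) :=
  ⟨fun h => NeZero.ne M (by rw [i.level_eq, h, zero_mul])⟩

theorem not_dvd_N : ¬ i.1 ∣ M / i.1 := by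
  intro h
  apply i.not_sq_dvd
  obtain ⟨c, hc⟩ := h
  refine ⟨c, ?_⟩
  conv_lhs => rw [i.level_eq, hc]
  ring

theorem exists_data : ∃ D : ALData, D.Q = i.1 ∧ D.R = M / i.1 :=
  ALData.exists_of_coprime i.prime.pos (Nat.pos_of_ne_zero i.neZero_N.ne)
    ((Nat.Prime.coprime_iff_not_dvd i.prime).mpr i.not_dvd_N)

/-- the Atkin–Lehner data at `q`. -/
def data : ALData := i.exists_data.choose

theorem data_Q : i.data.Q = i.1 := i.exists_data.choose_spec.1
theorem data_R : i.data.R = M / i.1 := i.exists_data.choose_spec.2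

theorem level_eq_data : M = i.data.Q * i.data.R := by
  rw [i.data_Q, i.data_R, mul_comm]
  exact i.level_eq

theorem not_dvd_pow (n : ℕ) (hp : p.Prime) : ¬ i.1 ∣ p ^ n := fun h =>
  i.ne_p ((Nat.prime_dvd_prime_iff_eq i.prime hp).mp (i.prime.dvd_of_dvd_pow h))

instance finite (M p : ℕ) [NeZero M] : Finite (NewIdx M p) := by
  have hfin : {q : ℕ | q.Prime ∧ q ≠ p ∧ q ∣ M ∧ ¬ q ^ 2 ∣ M}.Finite :=
    ((Finset.range (M + 1)).finite_toSet).subset fun q hq => by
      simp only [Finset.coe_range, Set.mem_Iio]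
      exact Nat.lt_succ_of_le (Nat.le_of_dvd (Nat.pos_of_ne_zero (NeZero.ne M)) hq.2.2.1)
  exact hfin.to_subtype

/-- `α_*` at `q`. -/
def degA : JZero M →+ JZero (M / i.1) :=
  haveI := i.neZero_q
  haveI := i.neZero_N
  pushAlphaAt i.level_eq

/-- `α_* ∘ w_*` at `q`. -/
def degB : JZero M →+ JZero (M / i.1) :=
  i.degA.comp (pushWAt i.data i.level_eq_data)

/-- the corestriction `β₁` at `q`. -/
def corA : HomPar M →ₗ[ℤ] HomPar (M / i.1) :=
  haveI := i.neZero_q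
  haveI := i.neZero_N
  coresParAt i.level_eq

/-- the corestriction `β₂` at `q`. -/
def corB : HomPar M →ₗ[ℤ] HomPar (M / i.1) :=
  haveI := i.neZero_q
  haveI := i.neZero_N
  coresParDAt i.level_eq

theorem degA_smul (σ : Qb ≃ₐ[ℚ] Qb) (y : JZero M) : i.degA (σ • y) = σ • i.degA y :=
  haveI := i.neZero_q
  haveI := i.neZero_N
  pushAlphaAt_smul i.level_eq σ y

theorem degB_smul (σ : Qb ≃ₐ[ℚ] Qb) (y : JZero M) : i.degB (σ • y) = σ • i.degB y := by
  unfold degB
  rw [AddMonoidHom.comp_apply, pushWAt_smul, degA_smul]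
  rfl

theorem degA_kappaC (n : ℕ) (c : HomPar M) :
    haveI := i.neZero_N
    i.degA ((kappaC M n c : Jtors M n) : JZero M) =
      ((kappaC (M / i.1) n (i.corA c) : Jtors (M / i.1) n) : JZero (M / i.1)) :=
  haveI := i.neZero_q
  haveI := i.neZero_N
  pushAlphaAt_kappaC i.level_eq i.prime i.not_dvd_N n c

theorem degB_kappaC (n : ℕ) (c : HomPar M) :
    haveI := i.neZero_N
    i.degB ((kappaC M n c : Jtors M n) : JZero M) =
      ((kappaC (M / i.1) n (i.corB c) : Jtors (M / i.1) n) : JZero (M / i.1)) :=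
  haveI := i.neZero_q
  haveI := i.neZero_N
  pushAlphaAt_pushWAt_kappaC i.level_eq i.prime i.not_dvd_N i.data i.data_Q i.data_R
    i.level_eq_data n c

end NewIdx

/-! ### the kernel map -/

/-- the target of the kernel map. -/
abbrev NewTarget (M p : ℕ) : Type := (i : NewIdx M p) → JZero (M / i.1) × JZero (M / i.1)

/-- **the kernel map** `u`: `y ↦ (α_* y, α_* w_* y)` at all primes `q ≠ p`, `q ‖ M`. -/
def newU (M p : ℕ) [NeZero M] : JZero M →ₗ[ℤ] NewTarget M p :=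
  LinearMap.pi fun i => LinearMap.prod i.degA.toIntLinearMap i.degB.toIntLinearMap

variable {M p : ℕ} [NeZero M]

theorem newU_apply (y : JZero M) (i : NewIdx M p) : newU M p y i = (i.degA y, i.degB y) := rfl

theorem newU_eq_zero_iff (y : JZero M) :
    newU M p y = 0 ↔ ∀ i : NewIdx M p, i.degA y = 0 ∧ i.degB y = 0 := by
  constructor
  · intro h i
    have := congrFun h i
    rw [newU_apply] at this
    exact ⟨congrArg Prod.fst this, congrArg Prod.snd this⟩
  · intro h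
    funext i
    rw [newU_apply, (h i).1, (h i).2]
    rfl

/-- **`hu`**: the kernel of `u` is Galois-stable. -/
theorem newU_smul (σ : Qb ≃ₐ[ℚ] Qb) (y : JZero M) (h : newU M p y = 0) :
    newU M p (σ • y) = 0 := by
  rw [newU_eq_zero_iff] at h ⊢
  intro i
  have h0 : σ • (0 : JZero (M / i.1)) = 0 := smul_zero (A := JZero (M / i.1)) σ
  exact ⟨by rw [i.degA_smul, (h i).1]; exact h0, by rw [i.degB_smul, (h i).2]; exact h0⟩

/-- **`hux`**, abstract form: an `x₀` killed by all corestrictions has its eigen-class killed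
by `𝒪 ⊗ u`. -/
theorem newU_newClass_of {O : Type*} [CommRing O] {x₀ : O ⊗[ℤ] HomPar M}
    (hx₀ : ∀ i : NewIdx M p, i.corA.baseChange O x₀ = 0 ∧ i.corB.baseChange O x₀ = 0) (n : ℕ) :
    (newU M p ∘ₗ (Jtors M (p ^ n)).subtype).baseChange O (newClass M p O x₀ n) = 0 := by
  refine newClass_ker (newU M p)
    (LinearMap.pi fun i : NewIdx M p => LinearMap.prod i.corA i.corB) n
    (LinearMap.pi fun i : NewIdx M p =>
      haveI := i.neZero_N
      (LinearMap.prodMap ((Jtors (M / i.1) (p ^ n)).subtype ∘ₗ kappaC (M / i.1) (p ^ n))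
        ((Jtors (M / i.1) (p ^ n)).subtype ∘ₗ kappaC (M / i.1) (p ^ n))) ∘ₗ
        LinearMap.proj i) ?_ ?_
  · intro c
    funext i
    rw [newU_apply, i.degA_kappaC, i.degB_kappaC]
    rfl
  · exact baseChange_pi_eq_zero _ x₀ fun i =>
      baseChange_prod_eq_zero _ _ x₀ (hx₀ i).1 (hx₀ i).2

/-- **`hux`**: the eigen-class of a newform of level `M` is killed by `𝒪 ⊗ u`. -/
theorem newU_newClass
    (hNV : ∀ (N q : ℕ) [NeZero N] [NeZero q], q.Prime → ¬ q ∣ N → NewVectorAt N q)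
    (g : CuspForm (Gamma0 M) 2) (hg : g.IsNewform)
    (S : Finset ℕ) (hS : ∀ r : ℕ, r.Prime → r ∣ M → r ∈ S)
    (O : Type) [CommRing O] [IsDomain O] [CharZero O]
    (chig : CuspForm.heckeAlgebra M 2 (↑S : Set ℕ) →+* ℂ)
    (hchig : ∀ (ℓ : ℕ) (hℓ : ℓ.Prime) (hℓM : ¬ ℓ ∣ M) (hℓS : ℓ ∉ (↑S : Set ℕ)),
      chig (CuspForm.heckeAlgebra.T hℓ hℓM hℓS) = ModularFormClass.qCoeff g ℓ)
    (iota : chig.range →+* O) (x₀ : O ⊗[ℤ] HomPar M)
    (hx : ∀ (ℓ : ℕ) (hℓ : ℓ.Prime) (hℓM : ¬ ℓ ∣ M) (hℓS : ℓ ∉ (↑S : Set ℕ)),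
      (heckeHom M ⟨ℓ, hℓ⟩).baseChange O x₀ =
        (iota.comp chig.rangeRestrict) (CuspForm.heckeAlgebra.T hℓ hℓM hℓS) • x₀) (n : ℕ) :
    (newU M p ∘ₗ (Jtors M (p ^ n)).subtype).baseChange O (newClass M p O x₀ n) = 0 :=
  newU_newClass_of (fun i =>
    haveI := i.neZero_q
    haveI := i.neZero_N
    newVector_cast i.level_eq (hNV (M / i.1) i.1 i.prime i.not_dvd_N) g hg S hS O chig hchig
      iota x₀ hx) n

/-- **`hquart`**: the quartic identity on `ker u ∩ J₀(M)[pⁿ]`. -/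
theorem newU_quartic (hp : p.Prime)
    (hkey : ∀ D' : ALData, AuxLevel.AuxOK D' → FrobToricKeyAt D')
    (n q : ℕ) (hq : q.Prime) (hqp : q ≠ p) (hqM : q ∣ M) (hq2 : ¬ q ^ 2 ∣ M)
    (A : ValuationSubring Qb) (hA : A.LiesOverPrime q)
    (φ : Qb ≃ₐ[ℚ] Qb) (hφ : A.IsFrobeniusAt φ q)
    (y : JZero M) (hy : p ^ n • y = 0) (huy : newU M p y = 0) :
    φ • φ • φ • φ • y - ((q ^ 2 + 1 : ℕ) : ℤ) • (φ • φ • y) + ((q ^ 2 : ℕ) : ℤ) • y = 0 := by
  set i : NewIdx M p := ⟨q, hq, hqp, hqM, hq2⟩ with hi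
  haveI := i.neZero_q
  haveI := i.neZero_N
  have h12 := (newU_eq_zero_iff y).mp huy i
  exact frobQuartic_cast i.level_eq i.prime i.not_dvd_N hkey i.data i.data_Q i.data_R
    i.level_eq_data (i.not_dvd_pow n hp) hA hφ y hy h12.1 h12.2

end Fermat.Agent.S35
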