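/-
Cluster T / S35, work package C (owner: helper23).

`newVectorAt : WeakSMOAt N q → NewVectorAt N q`: for a newform `g` of level `N q`, every eigenvector
of the eigen-character of `g` in `O ⊗ Hom_par(Γ₀(N q), ℤ)` is killed by the two corestrictions to
level `N`.

Reusable: `nv_exists_eigenform_of_character`: every ring homomorphism
`Ψ : heckeAlgebra N 2 S →+* ℂ` (`S` containing the primes of `N`) is the eigensystem away from `S`
of a normalised eigenform of level `N` (exact values, not only up to conjugation).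
-/
import Fermat.Agent.S35.Targets
import Fermat.Agent.F3.EigenChar.Deg
import Fermat.Agent.F3.EigenPadic.Closed
import Fermat.Agent.L.NewC.Eigen
import Fermat.Agent.S49.H91StepC
import Fermat.Agent.S22
import Fermat.Agent.S23.FiniteDim

set_option autoImplicit false
set_option linter.style.haveILetI false
set_option linter.unusedSectionVars false

noncomputable section

namespace Fermat.Agent.S35

open CongruenceSubgroup ModularFormClass ModularCurve.Period Fermat.Agent.F3EC Fermat.Agent.F3EP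
open CuspForm
open scoped TensorProduct

/-! ### every complex character of the Hecke algebra is the eigensystem of an eigenform -/

section Character

variable {N : ℕ} [NeZero N] {S : Set ℕ}

/-- A common eigenvector in `S₂(Γ₀(N))` of the `T_ℓ`, `ℓ ∉ S`, with the eigenvalues prescribed by a
character `Ψ` of the Hecke algebra. -/
theorem nv_exists_eigenvector_of_character (hNS : ∀ q : ℕ, q.Prime → q ∣ N → q ∈ S)
    (Ψ : heckeAlgebra N 2 S →+* ℂ) :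
    ∃ w : CuspForm (Gamma0 N) 2, w ≠ 0 ∧
      ∀ (ℓ : ℕ) (hℓ : ℓ.Prime) (hℓN : ¬ ℓ ∣ N) (hℓS : ℓ ∉ S),
        heckeTLin 2 hℓ hℓN w = Ψ (heckeAlgebra.T hℓ hℓN hℓS) • w := by
  obtain ⟨x, hx0, hx⟩ := exists_eigenvector_homPar' hNS Ψ
  set v : CuspForm (Gamma0 N) 2 × CuspForm (Gamma0 N) 2 := (periodEquiv N).symm x with hv
  have hv0 : v ≠ 0 := by
    intro h
    apply hx0
    have := congrArg (periodEquiv N) h
    rwa [hv, LinearEquiv.apply_symm_apply, map_zero] at this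
  have hTv : ∀ (ℓ : ℕ) (hℓ : ℓ.Prime) (hℓN : ¬ ℓ ∣ N) (hℓS : ℓ ∉ S),
      ((heckeTLin 2 hℓ hℓN).prodMap (heckeTLin 2 hℓ hℓN)) v =
        Ψ (heckeAlgebra.T hℓ hℓN hℓS) • v := by
    intro ℓ hℓ hℓN hℓS
    apply (periodEquiv N).injective
    have h1 := tauHom_apply N (heckeTLin 2 hℓ hℓN) x
    rw [← hv] at h1
    rw [← h1, tauHom_heckeTLin N (heckeInvolutionComm N) hℓ hℓN, hx ℓ hℓ hℓN hℓS, map_smul, hv,
      LinearEquiv.apply_symm_apply]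
  by_cases h1 : v.1 = 0
  · refine ⟨v.2, fun h2 => hv0 (Prod.ext h1 h2), fun ℓ hℓ hℓN hℓS => ?_⟩
    have := congrArg Prod.snd (hTv ℓ hℓ hℓN hℓS)
    simpa using this
  · refine ⟨v.1, h1, fun ℓ hℓ hℓN hℓS => ?_⟩
    have := congrArg Prod.fst (hTv ℓ hℓ hℓN hℓS)
    simpa using this

/-- The family of all Hecke operators of level `N`, indexed by the primes. -/
def nvHeckeFamily (N : ℕ) [NeZero N] (p : Nat.Primes) : Module.End ℂ (CuspForm (Gamma0 N) 2) :=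
  if h : (p : ℕ) ∣ N then heckeULin 2 h else heckeTLin 2 p.2 h

theorem nvHeckeFamily_mem (p : Nat.Primes) :
    nvHeckeFamily N p ∈ heckeGenerators N 2 (∅ : Set ℕ) := by
  unfold nvHeckeFamily
  split_ifs with h
  · exact heckeULin_mem_heckeGenerators p.2 h (Set.notMem_empty _)
  · exact heckeTLin_mem_heckeGenerators p.2 h (Set.notMem_empty _)

theorem nvHeckeFamily_commute (p p' : Nat.Primes) :
    Commute (nvHeckeFamily N p) (nvHeckeFamily N p') :=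
  commute_of_mem_heckeGenerators (nvHeckeFamily_mem p) (nvHeckeFamily_mem p')

theorem nvHeckeFamily_commute_T (p : Nat.Primes) {ℓ : ℕ} (hℓ : ℓ.Prime) (hℓN : ¬ ℓ ∣ N) :
    Commute (heckeTLin 2 hℓ hℓN) (nvHeckeFamily N p) :=
  commute_of_mem_heckeGenerators
    (heckeTLin_mem_heckeGenerators (S := (∅ : Set ℕ)) hℓ hℓN (Set.notMem_empty _))
    (nvHeckeFamily_mem p)

/-- **Every complex character of the Hecke algebra away from `S` (`S` containing the primes of the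
level) is the eigensystem away from `S` of a normalised eigenform.** -/
theorem nv_exists_eigenform_of_character (hNS : ∀ q : ℕ, q.Prime → q ∣ N → q ∈ S)
    (Ψ : heckeAlgebra N 2 S →+* ℂ) :
    ∃ g₀ : CuspForm (Gamma0 N) 2, g₀.IsNormalizedEigenform ∧
      ∀ (ℓ : ℕ) (hℓ : ℓ.Prime) (hℓN : ¬ ℓ ∣ N) (hℓS : ℓ ∉ S),
        qCoeff g₀ ℓ = Ψ (heckeAlgebra.T hℓ hℓN hℓS) := by
  classical
  haveI : FiniteDimensional ℂ (CuspForm (Gamma0 N) 2) :=
    Fermat.Agent.S23.finiteDimensional_cuspForm N 2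
  obtain ⟨w, hw0, hw⟩ := nv_exists_eigenvector_of_character hNS Ψ
  -- the joint eigenspace
  let X : Submodule ℂ (CuspForm (Gamma0 N) 2) :=
    { carrier := {u | ∀ (ℓ : ℕ) (hℓ : ℓ.Prime) (hℓN : ¬ ℓ ∣ N) (hℓS : ℓ ∉ S),
        heckeTLin 2 hℓ hℓN u = Ψ (heckeAlgebra.T hℓ hℓN hℓS) • u}
      add_mem' := by
        intro a b ha hb ℓ hℓ hℓN hℓS
        rw [map_add, ha ℓ hℓ hℓN hℓS, hb ℓ hℓ hℓN hℓS, smul_add]
      zero_mem' := by
        intro ℓ hℓ hℓN hℓS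
        rw [map_zero, smul_zero]
      smul_mem' := by
        intro c a ha ℓ hℓ hℓN hℓS
        rw [map_smul, ha ℓ hℓ hℓN hℓS, smul_comm] }
  have hXmem : ∀ u, u ∈ X ↔ ∀ (ℓ : ℕ) (hℓ : ℓ.Prime) (hℓN : ¬ ℓ ∣ N) (hℓS : ℓ ∉ S),
      heckeTLin 2 hℓ hℓN u = Ψ (heckeAlgebra.T hℓ hℓN hℓS) • u := fun u => Iff.rfl
  have hXstab : ∀ p : Nat.Primes, ∀ u ∈ X, nvHeckeFamily N p u ∈ X := by
    intro p u hu ℓ hℓ hℓN hℓS
    have hc := (nvHeckeFamily_commute_T (N := N) p hℓ hℓN).eq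
    have h1 := congrArg (fun f : Module.End ℂ (CuspForm (Gamma0 N) 2) => f u) hc
    simp only [Module.End.mul_apply] at h1
    rw [h1, hu ℓ hℓ hℓN hℓS, map_smul]
  obtain ⟨v, hvX, hv0, μ, hμ⟩ := Fermat.Agent.LNewC.exists_common_eigenvector_submodule
    (nvHeckeFamily N) nvHeckeFamily_commute X hXstab w ((hXmem w).mpr hw) hw0
  set θ : ℕ → ℂ := fun n => if h : n.Prime then μ ⟨n, h⟩ else 0 with hθ
  have hθp : ∀ (ℓ : ℕ) (hℓ : ℓ.Prime), θ ℓ = μ ⟨ℓ, hℓ⟩ := fun ℓ hℓ => by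
    simp only [hθ, dif_pos hℓ]
  have hT : ∀ (ℓ : ℕ) (hℓ : ℓ.Prime) (hℓN : ¬ ℓ ∣ N), heckeTLin 2 hℓ hℓN v = θ ℓ • v := by
    intro ℓ hℓ hℓN
    have h := hμ ⟨ℓ, hℓ⟩
    rw [hθp ℓ hℓ, ← h]
    simp only [nvHeckeFamily, dif_neg hℓN]
  have hU : ∀ (ℓ : ℕ) (_ : ℓ.Prime) (hℓN : ℓ ∣ N), heckeULin 2 hℓN v = θ ℓ • v := by
    intro ℓ hℓ hℓN
    have h := hμ ⟨ℓ, hℓ⟩
    rw [hθp ℓ hℓ, ← h]
    simp only [nvHeckeFamily, dif_pos hℓN]
  obtain ⟨g₀, hg₀, hgθ⟩ :=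
    Fermat.Agent.S49h91.exists_normalizedEigenform_of_eigenvector v hv0 θ hT hU
  refine ⟨g₀, hg₀, fun ℓ hℓ hℓN hℓS => ?_⟩
  rw [hgθ ℓ hℓ]
  have h1 := hT ℓ hℓ hℓN
  have h2 := (hXmem v).mp hvX ℓ hℓ hℓN hℓS
  rw [h1] at h2
  have h3 : (θ ℓ - Ψ (heckeAlgebra.T hℓ hℓN hℓS)) • v = 0 := by
    rw [sub_smul, h2, sub_self]
  rcases smul_eq_zero.mp h3 with h | h
  · exact sub_eq_zero.mp h
  · exact absurd h hv0

end Character

/-! ### from an eigenvector with coefficients in `O` to a complex character -/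

section Eigen

/-- A ring homomorphism from a domain integral over `ℤ` to a domain of characteristic zero is
injective. -/
theorem nv_injective_of_isIntegral {R₀ : Type*} [CommRing R₀] [IsDomain R₀]
    [Algebra.IsIntegral ℤ R₀] {O : Type*} [CommRing O] [IsDomain O] [CharZero O] (ι : R₀ →+* O) :
    Function.Injective ι := by
  rw [injective_iff_map_eq_zero]
  intro x hx
  by_contra hx0
  have hmem : x ∈ RingHom.ker ι := hx
  have h := Ideal.comap_ne_bot_of_integral_mem (R := ℤ) hx0 hmem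
    (Algebra.IsIntegral.isIntegral x)
  apply h
  rw [eq_bot_iff]
  intro n hn
  rw [Ideal.mem_comap, RingHom.mem_ker, eq_intCast, map_intCast] at hn
  rw [Ideal.mem_bot]
  exact_mod_cast hn

variable {N : ℕ} [NeZero N] {S : Set ℕ}

/-- The action of the Hecke algebra on `O ⊗ Hom_par`. -/
def nvRho (hNS : ∀ q : ℕ, q.Prime → q ∣ N → q ∈ S) (O : Type*) [CommRing O] :
    heckeAlgebra N 2 S →+* Module.End O (O ⊗[ℤ] HomPar N) :=
  (Module.End.baseChangeHom ℤ O (HomPar N)).toRingHom.comp (theta (heckeInvolutionComm N) hNS)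

theorem nvRho_apply (hNS : ∀ q : ℕ, q.Prime → q ∣ N → q ∈ S) (O : Type*) [CommRing O]
    (t : heckeAlgebra N 2 S) :
    nvRho hNS O t = (theta (heckeInvolutionComm N) hNS t).baseChange O := rfl

theorem nvRho_T (hNS : ∀ q : ℕ, q.Prime → q ∣ N → q ∈ S) (O : Type*) [CommRing O]
    {ℓ : ℕ} (hℓ : ℓ.Prime) (hℓN : ¬ ℓ ∣ N) (hℓS : ℓ ∉ S) :
    nvRho hNS O (heckeAlgebra.T hℓ hℓN hℓS) = (heckeHom N ⟨ℓ, hℓ⟩).baseChange O := by
  rw [nvRho_apply, theta_T]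

/-- Every element of the Hecke algebra acts on an eigenvector of the generators by a scalar coming
from `R₀`. -/
theorem nv_exists_scalar (hNS : ∀ q : ℕ, q.Prime → q ∣ N → q ∈ S)
    {O : Type*} [CommRing O] {R₀ : Type*} [CommRing R₀] (ι : R₀ →+* O) (r : ℕ → R₀)
    (y : O ⊗[ℤ] HomPar N)
    (hy : ∀ (ℓ : ℕ) (hℓ : ℓ.Prime), ¬ ℓ ∣ N → ℓ ∉ S →
      (heckeHom N ⟨ℓ, hℓ⟩).baseChange O y = ι (r ℓ) • y)
    (t : heckeAlgebra N 2 S) : ∃ s : R₀, nvRho hNS O t y = ι s • y := by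
  obtain ⟨t, ht⟩ := t
  induction ht using Algebra.adjoin_induction with
  | mem x hx =>
    rcases hx with ⟨ℓ, hℓ, hℓN, hℓS, rfl⟩ | ⟨q, hqN, hq, hqS, rfl⟩
    · refine ⟨r ℓ, ?_⟩
      have h := nvRho_T hNS O hℓ hℓN hℓS
      have h2 : (⟨heckeTLin 2 hℓ hℓN, Algebra.subset_adjoin
          (Or.inl ⟨ℓ, hℓ, hℓN, hℓS, rfl⟩)⟩ : heckeAlgebra N 2 S) =
          heckeAlgebra.T hℓ hℓN hℓS := rfl
      rw [h2, h]
      exact hy ℓ hℓ hℓN hℓS
    · exact absurd (hNS q hq hqN) hqS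
  | algebraMap n =>
    refine ⟨(n : R₀), ?_⟩
    have h2 : (⟨algebraMap ℤ (Module.End ℂ (CuspForm (Gamma0 N) 2)) n,
        Subalgebra.algebraMap_mem _ n⟩ : heckeAlgebra N 2 S) =
        ((n : ℤ) : heckeAlgebra N 2 S) := by
      apply Subtype.ext
      simp
    rw [h2, map_intCast, map_intCast]
    simp only [Module.End.intCast_apply]
    exact (Int.cast_smul_eq_zsmul O n y).symm
  | add a b ha hb iha ihb =>
    obtain ⟨sa, hsa⟩ := iha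
    obtain ⟨sb, hsb⟩ := ihb
    refine ⟨sa + sb, ?_⟩
    have h2 : (⟨a + b, add_mem ha hb⟩ : heckeAlgebra N 2 S) = ⟨a, ha⟩ + ⟨b, hb⟩ := rfl
    rw [h2, map_add, LinearMap.add_apply, hsa, hsb, map_add, add_smul]
  | mul a b ha hb iha ihb =>
    obtain ⟨sa, hsa⟩ := iha
    obtain ⟨sb, hsb⟩ := ihb
    refine ⟨sa * sb, ?_⟩
    have h2 : (⟨a * b, mul_mem ha hb⟩ : heckeAlgebra N 2 S) = ⟨a, ha⟩ * ⟨b, hb⟩ := rfl
    rw [h2, map_mul, Module.End.mul_apply, hsb, map_smul, hsa, smul_smul, map_mul, mul_comm]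

/-- **From an eigenvector to a complex character.**  A nonzero vector of `O ⊗ Hom_par(Γ₀(N), ℤ)`
on which the `T_ℓ`, `ℓ ∉ S`, act by `ι (r ℓ)`, `r ℓ` in a ring `R₀` embedded in `O` and mapping
to `ℂ`, gives a character of the Hecke algebra with `Ψ (T_ℓ) = r ℓ`. -/
theorem nv_exists_character_of_eigenvector (hNS : ∀ q : ℕ, q.Prime → q ∣ N → q ∈ S)
    {O : Type*} [CommRing O] [IsDomain O] {R₀ : Type*} [CommRing R₀] (ι : R₀ →+* O)
    (hι : Function.Injective ι) (emb : R₀ →+* ℂ) (r : ℕ → R₀)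
    (y : O ⊗[ℤ] HomPar N) (hy0 : y ≠ 0)
    (hy : ∀ (ℓ : ℕ) (hℓ : ℓ.Prime), ¬ ℓ ∣ N → ℓ ∉ S →
      (heckeHom N ⟨ℓ, hℓ⟩).baseChange O y = ι (r ℓ) • y) :
    ∃ Ψ : heckeAlgebra N 2 S →+* ℂ,
      ∀ (ℓ : ℕ) (hℓ : ℓ.Prime) (hℓN : ¬ ℓ ∣ N) (hℓS : ℓ ∉ S),
        Ψ (heckeAlgebra.T hℓ hℓN hℓS) = emb (r ℓ) := by
  classical
  have huniq : ∀ s s' : R₀, ι s • y = ι s' • y → s = s' := by
    intro s s' h
    have h1 : (ι s - ι s') • y = 0 := by rw [sub_smul, h, sub_self]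
    rcases smul_eq_zero.mp h1 with h2 | h2
    · exact hι (sub_eq_zero.mp h2)
    · exact absurd h2 hy0
  choose Φ hΦ using nv_exists_scalar hNS ι r y hy
  have hone : Φ 1 = 1 := by
    apply huniq
    rw [← hΦ, map_one, Module.End.one_apply, map_one, one_smul]
  have hmul : ∀ a b, Φ (a * b) = Φ a * Φ b := by
    intro a b
    apply huniq
    rw [← hΦ, map_mul, Module.End.mul_apply, hΦ b, map_smul, hΦ a, smul_smul, map_mul, mul_comm]
  have hzero : Φ 0 = 0 := by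
    apply huniq
    rw [← hΦ, map_zero, LinearMap.zero_apply, map_zero, zero_smul]
  have hadd : ∀ a b, Φ (a + b) = Φ a + Φ b := by
    intro a b
    apply huniq
    rw [← hΦ, map_add, LinearMap.add_apply, hΦ a, hΦ b, map_add, add_smul]
  let Φr : heckeAlgebra N 2 S →+* R₀ :=
    { toFun := Φ, map_one' := hone, map_mul' := hmul, map_zero' := hzero, map_add' := hadd }
  refine ⟨emb.comp Φr, ?_⟩
  intro ℓ hℓ hℓN hℓS
  show emb (Φ (heckeAlgebra.T hℓ hℓN hℓS)) = emb (r ℓ)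
  congr 1
  apply huniq
  rw [← hΦ, nvRho_T hNS O hℓ hℓN hℓS]
  exact hy ℓ hℓ hℓN hℓS

end Eigen

/-! ### WP C -/

/-- The form of (weak) strong multiplicity one consumed by WP C (WP S, helper68). -/
def WeakSMOAt (N q : ℕ) : Prop :=
  ∀ (g : CuspForm (Gamma0 (N * q)) 2) (g₀ : CuspForm (Gamma0 N) 2) (S : Finset ℕ),
    g.IsNormalizedEigenform → g₀.IsNormalizedEigenform →
    (∀ ℓ : ℕ, ℓ.Prime → ℓ ∉ S → qCoeff g₀ ℓ = qCoeff g ℓ) →
    ∀ ℓ : ℕ, ℓ.Prime → ¬ ℓ ∣ N * q → qCoeff g₀ ℓ = qCoeff g ℓ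

/-- The key step of WP C for an abstract Hecke-equivariant map `τ` from level `N q` to level `N`. -/
theorem nv_baseChange_eq_zero (N q : ℕ) [NeZero N] [NeZero q] (hq : q.Prime)
    (hSMO : WeakSMOAt N q)
    (g : CuspForm (Gamma0 (N * q)) 2) (hg : g.IsNewform)
    (S : Finset ℕ) (hS : ∀ r : ℕ, r.Prime → r ∣ N * q → r ∈ S)
    (O : Type) [CommRing O] [IsDomain O] [CharZero O]
    (chig : CuspForm.heckeAlgebra (N * q) 2 (↑S : Set ℕ) →+* ℂ)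
    (hchig : ∀ (ℓ : ℕ) (hℓ : ℓ.Prime) (hℓM : ¬ ℓ ∣ N * q) (hℓS : ℓ ∉ (↑S : Set ℕ)),
      chig (CuspForm.heckeAlgebra.T hℓ hℓM hℓS) = ModularFormClass.qCoeff g ℓ)
    (iota : chig.range →+* O) (x : O ⊗[ℤ] HomPar (N * q))
    (hx : ∀ (ℓ : ℕ) (hℓ : ℓ.Prime) (hℓM : ¬ ℓ ∣ N * q) (hℓS : ℓ ∉ (↑S : Set ℕ)),
      (heckeHom (N * q) ⟨ℓ, hℓ⟩).baseChange O x =
        (iota.comp chig.rangeRestrict) (CuspForm.heckeAlgebra.T hℓ hℓM hℓS) • x)
    (τ : HomPar (N * q) →ₗ[ℤ] HomPar N)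
    (hτ : ∀ (ℓ : Nat.Primes), ¬ (ℓ : ℕ) ∣ N * q → ∀ c : HomPar (N * q),
      τ (heckeHom (N * q) ℓ c) = heckeHom N ℓ (τ c)) :
    τ.baseChange O x = 0 := by
  classical
  by_contra hy0
  set y := τ.baseChange O x with hy
  -- integrality and injectivity of `iota`
  haveI : Module.Finite ℤ (heckeAlgebra (N * q) 2 (↑S : Set ℕ)) :=
    Fermat.Agent.S22.result (N * q) 2 ↑S
  haveI : Algebra.IsIntegral ℤ chig.range := by
    refine ⟨fun z => ?_⟩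
    obtain ⟨t, rfl⟩ := chig.rangeRestrict_surjective z
    exact (Algebra.IsIntegral.isIntegral (R := ℤ) t).map chig.rangeRestrict.toIntAlgHom
  have hι : Function.Injective iota := nv_injective_of_isIntegral iota
  have hNS : ∀ r : ℕ, r.Prime → r ∣ N → r ∈ (↑S : Set ℕ) := fun r hr hrN =>
    Finset.mem_coe.mpr (hS r hr (Dvd.dvd.mul_right hrN q))
  have hnd : ∀ ℓ : ℕ, ℓ.Prime → ℓ ∉ (↑S : Set ℕ) → ¬ ℓ ∣ N * q := fun ℓ hℓ hℓS h =>
    hℓS (Finset.mem_coe.mpr (hS ℓ hℓ h))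
  set r : ℕ → chig.range := fun ℓ =>
    if h : ℓ.Prime ∧ ¬ ℓ ∣ N * q ∧ ℓ ∉ (↑S : Set ℕ) then
      chig.rangeRestrict (heckeAlgebra.T h.1 h.2.1 h.2.2) else 0 with hr
  have hrℓ : ∀ (ℓ : ℕ) (hℓ : ℓ.Prime) (hℓM : ¬ ℓ ∣ N * q) (hℓS : ℓ ∉ (↑S : Set ℕ)),
      r ℓ = chig.rangeRestrict (heckeAlgebra.T hℓ hℓM hℓS) := fun ℓ hℓ hℓM hℓS => by
    simp only [hr, dif_pos (show ℓ.Prime ∧ ¬ ℓ ∣ N * q ∧ ℓ ∉ (↑S : Set ℕ) from ⟨hℓ, hℓM, hℓS⟩)]
  have hyeig : ∀ (ℓ : ℕ) (hℓ : ℓ.Prime), ¬ ℓ ∣ N → ℓ ∉ (↑S : Set ℕ) →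
      (heckeHom N ⟨ℓ, hℓ⟩).baseChange O y = iota (r ℓ) • y := by
    intro ℓ hℓ _ hℓS
    have hℓM := hnd ℓ hℓ hℓS
    have hcomm : (heckeHom N ⟨ℓ, hℓ⟩).baseChange O ∘ₗ τ.baseChange O =
        τ.baseChange O ∘ₗ (heckeHom (N * q) ⟨ℓ, hℓ⟩).baseChange O := by
      rw [← LinearMap.baseChange_comp, ← LinearMap.baseChange_comp]
      congr 1
      refine LinearMap.ext fun c => ?_
      rw [LinearMap.comp_apply, LinearMap.comp_apply]
      exact (hτ ⟨ℓ, hℓ⟩ hℓM c).symm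
    have h1 := congrArg (fun f => f x) hcomm
    simp only [LinearMap.comp_apply] at h1
    rw [hy, h1, hx ℓ hℓ hℓM hℓS, map_smul, hrℓ ℓ hℓ hℓM hℓS]
    rfl
  obtain ⟨Ψ, hΨ⟩ := nv_exists_character_of_eigenvector hNS iota hι chig.range.subtype r y hy0 hyeig
  obtain ⟨g₀, hg₀, hg₀Ψ⟩ := nv_exists_eigenform_of_character hNS Ψ
  have hagree : ∀ ℓ : ℕ, ℓ.Prime → ℓ ∉ S → qCoeff g₀ ℓ = qCoeff g ℓ := by
    intro ℓ hℓ hℓS
    have hℓS' : ℓ ∉ (↑S : Set ℕ) := fun h => hℓS (Finset.mem_coe.mp h)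
    have hℓM := hnd ℓ hℓ hℓS'
    have hℓN : ¬ ℓ ∣ N := fun h => hℓM (Dvd.dvd.mul_right h q)
    rw [hg₀Ψ ℓ hℓ hℓN hℓS', hΨ ℓ hℓ hℓN hℓS', hrℓ ℓ hℓ hℓM hℓS', ← hchig ℓ hℓ hℓM hℓS']
    rfl
  have hall := hSMO g g₀ S hg.1 hg₀ hagree
  have hNne : N ≠ N * q := by
    intro h
    have hN0 : N ≠ 0 := NeZero.ne N
    have h1 : N * 1 = N * q := by rw [mul_one]; exact h
    have := Nat.eq_of_mul_eq_mul_left (Nat.pos_of_ne_zero hN0) h1
    exact hq.one_lt.ne this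
  exact hg.2 N (dvd_mul_right N q) hNne ⟨g₀, hg₀, hall⟩

/-- **WP C**: `NewVectorAt N q` from (weak) strong multiplicity one. -/
theorem newVectorAt (N q : ℕ) [NeZero N] [NeZero q] (hq : q.Prime) (hqN : ¬ q ∣ N)
    (hSMO : WeakSMOAt N q) : NewVectorAt N q := by
  intro g hg S hS O _ _ _ chig hchig iota x hx
  exact ⟨nv_baseChange_eq_zero N q hq hSMO g hg S hS O chig hchig iota x hx _
      (fun ℓ hℓ c => Fermat.Agent.LDeg.coresPar_heckeHom hq hqN ℓ hℓ c),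
    nv_baseChange_eq_zero N q hq hSMO g hg S hS O chig hchig iota x hx _
      (fun ℓ hℓ c => Fermat.Agent.LDeg.coresParD_heckeHom hq hqN ℓ hℓ c)⟩

end Fermat.Agent.S35
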