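import Fermat.Agent.S35.Endgame
import Fermat.Agent.S35.TransferCond
import Fermat.Agent.S30.Final

set_option autoImplicit false
set_option linter.unusedSectionVars false
set_option linter.style.haveILetI false

/-!
# S35, assembly part A1: the `FrobLattice` with the quartic identity  (statement: helper36)

Input: an eigen-class `x n ∈ 𝒪 ⊗ J₀(M)[pⁿ]` killed by a `G_ℚ`-stable kernel condition
`u : J₀(M) → J'`, and the quartic identity `φ⁴ y - (q² + 1) φ² y + q² y = 0` for the Frobenius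
elements `φ` at the primes `q ‖ M`, `q ≠ p`, on `{y ∈ J₀(M)[pⁿ] : u y = 0}`.
Output: a `FrobLattice` with `FrobQuartic` (the input of `S35/Endgame.lean`).

Proof: `exists_eigenLattice_transfer_cond` (helper34) with the list
`[(1, φ ^ 4), (-(q ^ 2 + 1), φ ^ 2), (q ^ 2, 1)]`; the three clauses `cont`, `unram`, `frob` as in
`Lib/BadRed/Bridge/S34Bridge.lean` (`exists_frobLattice_unip`) / `S30/TateLattice.lean`.

Proof: helper34.
-/

noncomputable section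

namespace Fermat.Agent.S35

open ModularCurve AlgebraicCurve IsLocalRing
open scoped TensorProduct
open Fermat.Agent.S30 Fermat.Agent.S30Tate

/-- **A1.** -/
theorem exists_frobLattice_quartic (M : ℕ) [NeZero M]
    (hFin : F3.TorsionFinite M)
    (hUnr : F3.TorsionUnramified M) (hFrob : F3.TorsionFrobQuadratic M)
    (hOpen : F3.TorsionOpenStab M) (hComm : F3.HeckeGaloisComm M)
    (p : ℕ) [Fact p.Prime] (S : Finset ℕ) (hpS : p ∈ S)
    (hNS : ∀ q : ℕ, q.Prime → q ∣ M → q ∈ S)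
    (𝒪 : Type) [CommRing 𝒪] [IsDomain 𝒪] [IsDiscreteValuationRing 𝒪]
    [IsAdicComplete (maximalIdeal 𝒪) 𝒪] [Finite (ResidueField 𝒪)] [CharZero 𝒪]
    (hp𝒪 : (p : 𝒪) ∈ maximalIdeal 𝒪) (χ : CuspForm.heckeAlgebra M 2 (↑S : Set ℕ) →+* 𝒪)
    -- the eigen-class
    (x : (n : ℕ) → 𝒪 ⊗[ℤ] F3.Jtors M (p ^ n))
    (hx0 : ∃ n, x n ≠ 0)
    (hcompat : ∀ n, (mulPTors M p n).baseChange 𝒪 (x (n + 1)) = x n)
    (heig : ∀ (n ℓ : ℕ) (hℓ : ℓ.Prime) (hℓN : ¬ ℓ ∣ M) (hℓS : ℓ ∉ (↑S : Set ℕ)),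
      (F3.heckeTors M (p ^ n) ⟨ℓ, hℓ⟩).baseChange 𝒪 (x n) =
        χ (CuspForm.heckeAlgebra.T hℓ hℓN hℓS) • x n)
    -- the kernel condition
    {J' : Type} [AddCommGroup J'] (u : JZero M →ₗ[ℤ] J')
    (hu : ∀ (σ : GQ) (y : JZero M), u y = 0 → u (σ • y) = 0)
    (hux : ∀ n, (u ∘ₗ (F3.Jtors M (p ^ n)).subtype).baseChange 𝒪 (x n) = 0)
    -- the quartic identity on the kernel
    (hquart : ∀ (n q : ℕ), q.Prime → q ≠ p → q ∣ M → ¬ q ^ 2 ∣ M →
      ∀ A : ValuationSubring (AlgebraicClosure ℚ), A.LiesOverPrime q →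
        ∀ φ : GQ, A.IsFrobeniusAt φ q →
          ∀ y : JZero M, p ^ n • y = 0 → u y = 0 →
            φ • φ • φ • φ • y - ((q ^ 2 + 1 : ℕ) : ℤ) • (φ • φ • y) + ((q ^ 2 : ℕ) : ℤ) • y = 0) :
    ∃ L : FrobLattice p M S 𝒪 (heckeEigenvalue χ), FrobQuartic p M L.ρ := by
  have hp : p.Prime := Fact.out
  obtain ⟨Λ, _, _, _, _, _, ρ, hcont, hunr, hfrob, hlist⟩ :=
    exists_eigenLattice_transfer_cond (O := 𝒪) (G := GQ) (J := JZero M) (ι := HeckeIdx M S)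
      hp hp𝒪
      (fun i => heckeOperatorBar M ⟨i.1, i.2.1⟩)
      (fun i => χ (CuspForm.heckeAlgebra.T i.2.1 i.2.2.1 i.2.2.2))
      (fun i σ y => hComm ⟨i.1, i.2.1⟩ σ y)
      (hFin p hp.pos)
      (fun n => mulPTors M p n)
      (fun n y => mulPTors_coe M p n y)
      (fun i n => F3.heckeTors M (p ^ n) ⟨i.1, i.2.1⟩)
      (fun i n y => rfl)
      x hx0 hcompat
      (fun i n => heig n i.1 i.2.1 i.2.2.1 i.2.2.2)
      u hu hux
  refine ⟨{
    Λ := Λ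
    ρ := ρ
    cont := ?_
    unram := ?_
    frob := ?_ }, ?_⟩
  · -- adic continuity
    intro n
    have hpos : 0 < p ^ n := pow_pos hp.pos n
    haveI : Finite {y : JZero M // p ^ n • y = 0} := (hFin (p ^ n) hpos).to_subtype
    choose L hLfin hL using fun y : {y : JZero M // p ^ n • y = 0} => hOpen (p ^ n) hpos y.1 y.2
    haveI : ∀ y, FiniteDimensional ℚ (L y) := hLfin
    refine ⟨⨆ y, L y, inferInstance, fun σ hσ v => ?_⟩
    have hfix : ∀ y : JZero M, p ^ n • y = 0 → σ • y = y := fun y hy =>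
      hL ⟨y, hy⟩ σ (fun z hz => hσ z (le_iSup L ⟨y, hy⟩ hz))
    exact hcont n σ hfix v
  · -- unramified
    intro q hq hqN hqp P hP σ hσ
    exact hunr σ (fun n y hy =>
      hUnr (p ^ n) q hq (not_dvd_mul_pow hp hq hqN hqp n) P hP σ hσ y hy)
  · -- Frobenius relation
    intro ℓ hℓ hℓS A hA σ hσ
    have hℓS' : ℓ ∉ (↑S : Set ℕ) := fun h => hℓS (Finset.mem_coe.mp h)
    have hℓN : ¬ ℓ ∣ M := fun h => hℓS (hNS ℓ hℓ h)
    have hℓp : ℓ ≠ p := fun h => hℓS (h ▸ hpS)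
    rw [heckeEigenvalue_eq χ hℓ hℓN hℓS']
    exact hfrob σ (⟨ℓ, hℓ, hℓN, hℓS'⟩ : HeckeIdx M S) ℓ (fun n y hy =>
      hFrob (p ^ n) ℓ hℓ (not_dvd_mul_pow hp hℓ hℓN hℓp n) A hA σ hσ y hy)
  · -- the quartic identity
    intro q hq hqp hqM hq2 A hA φ hφ
    have h := hlist [((1 : ℤ), φ ^ 4), (-((q ^ 2 + 1 : ℕ) : ℤ), φ ^ 2), (((q ^ 2 : ℕ) : ℤ), 1)]
      (fun n y hy huy => by
        have h1 := hquart n q hq hqp hqM hq2 A hA φ hφ y hy huy
        have e4 : φ ^ 4 • y = φ • φ • φ • φ • y := by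
          rw [show (4 : ℕ) = 1 + 1 + 1 + 1 from rfl, pow_add, pow_add, pow_add, pow_one, mul_smul,
            mul_smul, mul_smul]
        have e2 : φ ^ 2 • y = φ • φ • y := by
          rw [pow_two, mul_smul]
        simp only [List.map_cons, List.map_nil, List.sum_cons, List.sum_nil, add_zero, one_smul,
          e4, e2, neg_smul]
        rw [← h1]
        abel)
    simp only [List.map_cons, List.map_nil, List.sum_cons, List.sum_nil, add_zero, one_smul,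
      map_pow, map_one, neg_smul] at h
    have hz1 : (((q ^ 2 + 1 : ℕ) : ℤ)) • (ρ φ ^ 2) = ((q : 𝒪) * (q : 𝒪) + 1) • (ρ φ ^ 2) := by
      rw [← Int.cast_smul_eq_zsmul 𝒪]
      congr 1
      push_cast
      ring
    have hz2 : (((q ^ 2 : ℕ) : ℤ)) • (1 : Module.End 𝒪 Λ)
        = ((q : 𝒪) * (q : 𝒪)) • (1 : Module.End 𝒪 Λ) := by
      rw [← Int.cast_smul_eq_zsmul 𝒪]
      congr 1
      push_cast
      ring
    rw [hz1, hz2] at h
    have hexp : (ρ φ * ρ φ - ((q : 𝒪) * (q : 𝒪)) • (1 : Module.End 𝒪 Λ)) * (ρ φ * ρ φ - 1)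
        = ρ φ ^ 4 + (-(((q : 𝒪) * (q : 𝒪) + 1) • ρ φ ^ 2)
          + ((q : 𝒪) * (q : 𝒪)) • (1 : Module.End 𝒪 Λ)) := by
      rw [sub_mul, mul_sub, mul_sub, mul_one, smul_mul_assoc, one_mul, smul_mul_assoc, one_mul,
        add_smul, one_smul]
      have e4 : ρ φ ^ 4 = ρ φ * ρ φ * (ρ φ * ρ φ) := by
        rw [show (4 : ℕ) = 2 + 2 from rfl, pow_add, pow_two]
      rw [e4, pow_two]
      abel
    show (ρ φ * ρ φ - ((q : 𝒪) * (q : 𝒪)) • (1 : Module.End 𝒪 Λ)) * (ρ φ * ρ φ - 1) = 0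
    rw [hexp]
    exact h

end Fermat.Agent.S35
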