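/-
S35, work package S (helper68; sub-architect helper36): **weak strong multiplicity one**.

`smo_weak`: let `f`, `g` be normalised eigenforms of weight 2 and levels `M`, `M₀ ∣ M`.  If
`a_ℓ(f) = a_ℓ(g)` for all primes `ℓ` outside a finite set `S`, then `a_ℓ(f) = a_ℓ(g)` for ALL
primes `ℓ ∤ M`.  Hence (`not_isNewform_of_agree`) a newform of level `M` has no companion of
level `M₀ ∣ M`, `M₀ ≠ M`, with the same eigenvalues outside a finite set.
(`SMO/Main.lean` with the landed S30.)
-/
import Fermat.Agent.S30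
import Fermat.Agent.S35.SMO.Main

set_option autoImplicit false

namespace Fermat.Agent.S35SMO

open CuspForm ModularFormClass CongruenceSubgroup

variable {M M₀ : ℕ} [NeZero M] [NeZero M₀]

/-- S30, in the shape consumed by `SMO/Main.lean`. -/
theorem s30Shape : S30Shape := Fermat.Agent.S30.result

/-- **Weak strong multiplicity one.**  Normalised eigenforms `f`, `g` of levels `M`, `M₀ ∣ M`
with the same eigenvalues outside a finite set of primes have the same eigenvalues at all
primes not dividing `M`. -/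
theorem smo_weak (hM : M₀ ∣ M) {f : CuspForm (Gamma0 M) 2} (hf : f.IsNormalizedEigenform)
    {g : CuspForm (Gamma0 M₀) 2} (hg : g.IsNormalizedEigenform) (S : Finset ℕ)
    (h : ∀ ℓ : ℕ, ℓ.Prime → ℓ ∉ S → qCoeff f ℓ = qCoeff g ℓ) :
    ∀ ℓ : ℕ, ℓ.Prime → ¬ ℓ ∣ M → qCoeff f ℓ = qCoeff g ℓ :=
  smo_weak_of s30Shape hM hf hg S h

/-- The eigen-system of `f` occurs at level `M₀` as soon as it occurs there outside a finite set
of primes. -/
theorem goodEigensystemOccursAt_of_agree (hM : M₀ ∣ M) {f : CuspForm (Gamma0 M) 2}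
    (hf : f.IsNormalizedEigenform) {g : CuspForm (Gamma0 M₀) 2} (hg : g.IsNormalizedEigenform)
    (S : Finset ℕ) (h : ∀ ℓ : ℕ, ℓ.Prime → ℓ ∉ S → qCoeff f ℓ = qCoeff g ℓ) :
    GoodEigensystemOccursAt f M₀ :=
  goodEigensystemOccursAt_of_agree_of s30Shape hM hf hg S h

/-- A newform of level `M` has no companion of smaller level `M₀ ∣ M` with the same eigenvalues
outside a finite set of primes. -/
theorem not_isNewform_of_agree (hM : M₀ ∣ M) (hne : M₀ ≠ M) {f : CuspForm (Gamma0 M) 2}
    (hf : f.IsNormalizedEigenform) {g : CuspForm (Gamma0 M₀) 2} (hg : g.IsNormalizedEigenform)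
    (S : Finset ℕ) (h : ∀ ℓ : ℕ, ℓ.Prime → ℓ ∉ S → qCoeff f ℓ = qCoeff g ℓ) :
    ¬ f.IsNewform :=
  not_isNewform_of_agree_of s30Shape hM hne hf hg S h

end Fermat.Agent.S35SMO
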