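import Mathlib
import Fermat.Agent.S34.Transfer
import Fermat.Agent.Lib.Cyclo.ModCharGlobal

/-!
# The determinant of a representation with cyclotomic Frobenius determinants, at ALL primes
(owner: helper62)

Let `ρ : G_ℚ → GL₂(O)` be a `GaloisRepAdic` over a Noetherian local ring `O` with `p ∈ 𝔪_O` such
that `det ρ(Frob_ℓ) = ℓ` for all primes `ℓ` outside a finite set `S ∋ p` (this is what the
Frobenius clause of S30/S35 gives).  Then `det ρ(φ) = q` for EVERY Frobenius element `φ` at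
EVERY prime `q ≠ p` (also for `q ∈ S`, where `ρ` may be ramified) : `det_frobenius_eq`.
Also `det ρ(σ) = 1` for `σ` in an inertia group at `q ≠ p` : `det_inertia_eq_one`.

Proof: Frobenius density at the finite level `L_n ⊇ ℚ(μ_{p^n})`, and Krull's intersection theorem.
-/

set_option autoImplicit false

namespace Fermat.Agent.S35

open Polynomial Fermat.Agent.F3 Fermat.Agent.TraceRigidity Fermat.Agent.S31 Fermat.Agent.S34
open IsLocalRing

variable {O : Type} [CommRing O] [IsLocalRing O]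

/-- If `a ≡ b mod m` as natural numbers, then `a - b ∈ (m)` in any commutative ring. -/
lemma natCast_sub_mem_span_of_modEq {R : Type*} [CommRing R] {m a b : ℕ}
    (h : (a : ZMod m) = (b : ZMod m)) : (a : R) - (b : R) ∈ Ideal.span {(m : R)} := by
  have h1 : ((a : ℤ) : ZMod m) = ((b : ℤ) : ZMod m) := by
    rw [Int.cast_natCast, Int.cast_natCast, h]
  rw [ZMod.intCast_eq_intCast_iff_dvd_sub] at h1
  obtain ⟨c, hc⟩ := h1
  rw [Ideal.mem_span_singleton]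
  refine ⟨-(c : R), ?_⟩
  have h2 : ((b : ℤ) : R) - ((a : ℤ) : R) = ((m : ℤ) : R) * (c : R) := by
    rw [← Int.cast_sub, hc, Int.cast_mul]
  simp only [Int.cast_natCast] at h2
  linear_combination -h2

/-- Determinants of all elements are determined modulo `𝔪 ^ n` by Frobenius elements: the
general congruence.  `c` is any function on `G_ℚ` with values in `ℕ` describing the action
on the `p ^ n`-th roots of unity. -/
theorem det_sub_natCast_mem (hdens : FrobDensityLite) {p : ℕ} (hp : p.Prime)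
    (hpO : (p : O) ∈ maximalIdeal O) (S : Finset ℕ) (hpS : p ∈ S) (ρ : GaloisRepAdic O)
    (hdet : ∀ ℓ : ℕ, ℓ.Prime → ℓ ∉ S → ∀ A : ValuationSubring (AlgebraicClosure ℚ),
      A.LiesOverPrime ℓ → ∀ σ : GQ, A.IsFrobeniusAt σ ℓ → LinearMap.det (ρ.ρ σ) = (ℓ : O))
    (n : ℕ) (s : GQ) (a : ℕ)
    (ha : haveI : NeZero (p ^ n) := ⟨pow_ne_zero n hp.ne_zero⟩
      ((Fermat.Agent.Cyclo.modChar (p ^ n) s : (ZMod (p ^ n))ˣ) : ZMod (p ^ n)) = (a : ZMod (p ^ n))) :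
    LinearMap.det (ρ.ρ s) - (a : O) ∈ maximalIdeal O ^ n := by
  classical
  haveI : NeZero (p ^ n) := ⟨pow_ne_zero n hp.ne_zero⟩
  obtain ⟨L₁, hL₁fd, hL₁n, hL₁⟩ := exists_normal_level ρ n
  obtain ⟨L, hLfd, hLn, hcyc, hL₁L⟩ := exists_normal_sup 1 (fun _ => L₁) (fun _ => hL₁fd)
    (fun _ => hL₁n) (Fermat.Agent.Cyclo.cycloField (p ^ n)) inferInstance inferInstance
  have hL : ∀ σ : GQ, (∀ x ∈ L, σ x = x) →
      ∀ v : ρ.V, ρ.ρ σ v - v ∈ (maximalIdeal O ^ n) • (⊤ : Submodule O ρ.V) :=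
    fun σ hσ => hL₁ σ fun x hx => hσ x (hL₁L 0 hx)
  obtain ⟨ℓ, B, τ, j, hℓ, hℓS, hB, hτ, hτs⟩ := exists_frob_pow hdens L hLfd hLn s S
  -- determinants
  have h1 : LinearMap.det (ρ.ρ s) - LinearMap.det (ρ.ρ (τ ^ j)) ∈ maximalIdeal O ^ n := by
    refine det_sub_mem_of_agree ρ n L hL (τ ^ j) s fun x hx => ?_
    exact (hτs x hx).symm
  have h2 : LinearMap.det (ρ.ρ (τ ^ j)) = ((ℓ ^ j : ℕ) : O) := by
    rw [map_pow, map_pow, hdet ℓ hℓ hℓS B hB τ hτ, Nat.cast_pow]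
  -- cyclotomic characters
  have hℓp : ¬ ℓ ∣ p ^ n := by
    intro h
    have h3 : ℓ = p := (Nat.prime_dvd_prime_iff_eq hℓ hp).mp (hℓ.dvd_of_dvd_pow h)
    exact hℓS (h3 ▸ hpS)
  have h4 : Fermat.Agent.Cyclo.modChar (p ^ n) (s⁻¹ * τ ^ j) = 1 := by
    apply Fermat.Agent.Cyclo.modChar_eq_one_of_fix_cycloField
    intro x hx
    rw [AlgEquiv.mul_apply, hτs x (hcyc hx)]
    exact s.symm_apply_apply x
  have h5 : Fermat.Agent.Cyclo.modChar (p ^ n) s = Fermat.Agent.Cyclo.modChar (p ^ n) τ ^ j := by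
    have h6 : Fermat.Agent.Cyclo.modChar (p ^ n) s * Fermat.Agent.Cyclo.modChar (p ^ n) (s⁻¹ * τ ^ j)
        = Fermat.Agent.Cyclo.modChar (p ^ n) τ ^ j := by
      rw [← map_mul, mul_inv_cancel_left, map_pow]
    rwa [h4, mul_one] at h6
  have h7 : ((ℓ ^ j : ℕ) : ZMod (p ^ n)) = (a : ZMod (p ^ n)) := by
    rw [← ha, h5, Units.val_pow_eq_pow_val,
      Fermat.Agent.Cyclo.modChar_frobenius (p ^ n) hℓ hℓp B hB τ hτ, Nat.cast_pow]
  have h8 : ((ℓ ^ j : ℕ) : O) - (a : O) ∈ maximalIdeal O ^ n := by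
    have h9 := natCast_sub_mem_span_of_modEq (R := O) h7
    have h10 : Ideal.span {((p ^ n : ℕ) : O)} ≤ maximalIdeal O ^ n := by
      rw [Ideal.span_le, Set.singleton_subset_iff, Nat.cast_pow]
      exact Ideal.pow_mem_pow hpO n
    exact h10 h9
  have h11 : LinearMap.det (ρ.ρ s) - (a : O)
      = (LinearMap.det (ρ.ρ s) - LinearMap.det (ρ.ρ (τ ^ j))) + (((ℓ ^ j : ℕ) : O) - (a : O)) := by
    rw [h2]; ring
  rw [h11]
  exact Ideal.add_mem _ h1 h8

variable [IsNoetherianRing O]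

/-- **The determinant at a Frobenius element at any prime `q ≠ p`** (also where `ρ` ramifies). -/
theorem det_frobenius_eq (hdens : FrobDensityLite) {p : ℕ} (hp : p.Prime)
    (hpO : (p : O) ∈ maximalIdeal O) (S : Finset ℕ) (hpS : p ∈ S) (ρ : GaloisRepAdic O)
    (hdet : ∀ ℓ : ℕ, ℓ.Prime → ℓ ∉ S → ∀ A : ValuationSubring (AlgebraicClosure ℚ),
      A.LiesOverPrime ℓ → ∀ σ : GQ, A.IsFrobeniusAt σ ℓ → LinearMap.det (ρ.ρ σ) = (ℓ : O))
    {q : ℕ} (hq : q.Prime) (hqp : q ≠ p) (A : ValuationSubring (AlgebraicClosure ℚ))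
    (hA : A.LiesOverPrime q) (φ : GQ) (hφ : A.IsFrobeniusAt φ q) :
    LinearMap.det (ρ.ρ φ) = (q : O) := by
  have hbot : ⨅ n : ℕ, maximalIdeal O ^ n = ⊥ :=
    Ideal.iInf_pow_eq_bot_of_isLocalRing _ (Ideal.IsMaximal.ne_top inferInstance)
  rw [← sub_eq_zero, ← Ideal.mem_bot, ← hbot, Ideal.mem_iInf]
  intro n
  haveI : NeZero (p ^ n) := ⟨pow_ne_zero n hp.ne_zero⟩
  refine det_sub_natCast_mem hdens hp hpO S hpS ρ hdet n φ q ?_
  have hqn : ¬ q ∣ p ^ n := by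
    intro h
    exact hqp ((Nat.prime_dvd_prime_iff_eq hq hp).mp (hq.dvd_of_dvd_pow h))
  exact Fermat.Agent.Cyclo.modChar_frobenius (p ^ n) hq hqn A hA φ hφ

/-- **The determinant on inertia at any prime `q ≠ p`** is trivial. -/
theorem det_inertia_eq_one (hdens : FrobDensityLite) {p : ℕ} (hp : p.Prime)
    (hpO : (p : O) ∈ maximalIdeal O) (S : Finset ℕ) (hpS : p ∈ S) (ρ : GaloisRepAdic O)
    (hdet : ∀ ℓ : ℕ, ℓ.Prime → ℓ ∉ S → ∀ A : ValuationSubring (AlgebraicClosure ℚ),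
      A.LiesOverPrime ℓ → ∀ σ : GQ, A.IsFrobeniusAt σ ℓ → LinearMap.det (ρ.ρ σ) = (ℓ : O))
    {q : ℕ} (hq : q.Prime) (hqp : q ≠ p) (A : ValuationSubring (AlgebraicClosure ℚ))
    (hA : A.LiesOverPrime q) (σ : GQ) (hσ : σ ∈ A.inertiaSubgroupIn ℚ) :
    LinearMap.det (ρ.ρ σ) = 1 := by
  have hbot : ⨅ n : ℕ, maximalIdeal O ^ n = ⊥ :=
    Ideal.iInf_pow_eq_bot_of_isLocalRing _ (Ideal.IsMaximal.ne_top inferInstance)
  rw [← sub_eq_zero, ← Ideal.mem_bot, ← hbot, Ideal.mem_iInf]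
  intro n
  haveI : NeZero (p ^ n) := ⟨pow_ne_zero n hp.ne_zero⟩
  have h := det_sub_natCast_mem hdens hp hpO S hpS ρ hdet n σ 1 (by
    have hqn : ¬ q ∣ p ^ n := by
      intro h
      exact hqp ((Nat.prime_dvd_prime_iff_eq hq hp).mp (hq.dvd_of_dvd_pow h))
    rw [Fermat.Agent.Cyclo.modChar_inertia (p ^ n) hq hqn A hA σ hσ, Units.val_one, Nat.cast_one])
  rwa [Nat.cast_one] at h

end Fermat.Agent.S35
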