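import Fermat.Agent.S30.Assembly
import Fermat.Prelude.Def_CuspForm_Newforms
import Fermat.Prelude.Def_GaloisRep_LocalConditions

set_option autoImplicit false

/-!
# S35, clause 2: the endgame on the eigen-lattice  (owner: helper36)

Clause 2 of S35 asks, at a prime `q ‖ M`, `q ≠ λ`, for the characteristic polynomial
`(X - a)(X - q a)`, `a = ± 1`, of EVERY Frobenius lift `φ` at `q`.  The representation `ρ'` of the
S30 core satisfies `charpoly (ρ' σ) = X² - t(σ) X + ε(σ)` for all `σ`, where `t` is determined by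
the quadratic relation `σ² - t(σ) σ + ε(σ) = 0` on the eigen-lattice `Λ` (`QuadRel`).

Input of this file (`FrobQuartic`): on `Λ` every Frobenius lift `φ` at `q` satisfies
`(φ² - q²)(φ² - 1) = 0`.  (Source: `Λ` lies in the Tate module of the `q`-new part
`ker α_* ∩ ker β_*` of `J₀(M)`; there `φ² - 1` maps into the toric part `W₀` (norms + Kronecker)
and `φ² = q²` on `W₀` (gluing).)

Output: `t(φ) = ± (q + 1)`, hence clause 2; `s35_of_lattice` is the frozen statement of S35 from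
the existence of such a lattice.  No case distinction ramified / unramified, irreducible /
reducible is needed.
-/

namespace Fermat.Agent.S35

open Module IsLocalRing Polynomial Fermat.Agent.S30

/-! ### the algebra -/

section Algebra

variable {R : Type*} [CommRing R] [IsDomain R] {Λ : Type*} [AddCommGroup Λ] [Module R Λ]
  [Module.IsTorsionFree R Λ]

/-- An eigenvector of `f` with eigenvalue `μ` and the quadratic relation give
`μ² - t μ + q = 0`. -/
theorem eigen_quad {f : Module.End R Λ} {t q μ : R}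
    (hquad : f * f - t • f + q • (1 : Module.End R Λ) = 0) {v : Λ} (hv : v ≠ 0)
    (hfv : f v = μ • v) : μ * μ - t * μ + q = 0 := by
  have h1 := congrArg (fun g : Module.End R Λ => g v) hquad
  simp only [LinearMap.add_apply, LinearMap.sub_apply, Module.End.mul_apply, LinearMap.smul_apply,
    Module.End.one_apply, LinearMap.zero_apply, hfv, map_smul] at h1
  have h2 : (μ * μ - t * μ + q) • v = 0 := by
    rw [add_smul, sub_smul, mul_smul, mul_smul]
    exact h1
  exact (smul_eq_zero.mp h2).resolve_right hv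

/-- **The algebra of clause 2.**  If `f² - t f + q = 0` and `(f² - q²)(f² - 1) = 0` on a nonzero
torsion-free module, `q ≠ 0`, then `t = q + 1` or `t = -(q + 1)`. -/
theorem trace_eq_of_quartic [Nontrivial Λ] {f : Module.End R Λ} {t q : R} (hq : q ≠ 0)
    (hquad : f * f - t • f + q • (1 : Module.End R Λ) = 0)
    (hquart : (f * f - (q * q) • (1 : Module.End R Λ)) * (f * f - 1) = 0) :
    t = q + 1 ∨ t = -(q + 1) := by
  obtain ⟨x₀, hx₀⟩ := exists_ne (0 : Λ)
  -- the four candidates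
  have key : ∃ (μ : R) (v : Λ), v ≠ 0 ∧ f v = μ • v ∧
      (μ = 1 ∨ μ = -1 ∨ μ = q ∨ μ = -q) := by
    by_cases h1 : f x₀ + x₀ = 0
    · exact ⟨-1, x₀, hx₀, by rw [neg_one_smul]; exact eq_neg_of_add_eq_zero_left h1,
        Or.inr (Or.inl rfl)⟩
    set y₁ := f x₀ + x₀ with hy₁
    by_cases h2 : f y₁ - y₁ = 0
    · exact ⟨1, y₁, h1, by rw [one_smul]; exact sub_eq_zero.mp h2, Or.inl rfl⟩
    set y₂ := f y₁ - y₁ with hy₂
    by_cases h3 : f y₂ + q • y₂ = 0
    · exact ⟨-q, y₂, h2, by rw [neg_smul]; exact eq_neg_of_add_eq_zero_left h3,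
        Or.inr (Or.inr (Or.inr rfl))⟩
    set y₃ := f y₂ + q • y₂ with hy₃
    refine ⟨q, y₃, h3, ?_, Or.inr (Or.inr (Or.inl rfl))⟩
    have h4 := congrArg (fun g : Module.End R Λ => g x₀) hquart
    simp only [LinearMap.sub_apply, Module.End.mul_apply, LinearMap.smul_apply,
      Module.End.one_apply, LinearMap.zero_apply, map_sub] at h4
    -- `h4 : f (f (f (f x₀))) - ... = 0`; rewrite `f y₃ - q • y₃` in the same terms
    have h5 : f y₃ - q • y₃ = 0 := by
      rw [hy₃, hy₂, hy₁]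
      simp only [map_add, map_sub, map_smul, smul_add, smul_sub]
      rw [← h4]
      simp only [mul_smul]
      abel
    exact sub_eq_zero.mp h5
  obtain ⟨μ, v, hv, hfv, hμ⟩ := key
  have h := eigen_quad hquad hv hfv
  rcases hμ with rfl | rfl | rfl | rfl
  · left
    have : (1 : R) * 1 - t * 1 + q = 0 := h
    linear_combination -this
  · right
    have : (-1 : R) * (-1) - t * (-1) + q = 0 := h
    linear_combination this
  · left
    have h' : μ * (μ + 1 - t) = 0 := by linear_combination h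
    have := (mul_eq_zero.mp h').resolve_left hq
    linear_combination -this
  · right
    have h' : q * (q + 1 + t) = 0 := by linear_combination h
    have := (mul_eq_zero.mp h').resolve_left hq
    linear_combination this

end Algebra

/-! ### the lattice with the quartic identity -/

section Lattice

variable {p N : ℕ} {S : Finset ℕ} {𝒪 : Type} [CommRing 𝒪] [IsDomain 𝒪]
  [IsDiscreteValuationRing 𝒪] [CharZero 𝒪]

/-- **The quartic identity**: every Frobenius lift `φ` at a prime `q ‖ N`, `q ≠ p`, satisfies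
`(φ² - q²)(φ² - 1) = 0` on the module. -/
def FrobQuartic (p N : ℕ) {𝒪 : Type} [CommRing 𝒪] {Λ : Type} [AddCommGroup Λ] [Module 𝒪 Λ]
    (ρ : GQ →* Module.End 𝒪 Λ) : Prop :=
  ∀ q : ℕ, q.Prime → q ≠ p → q ∣ N → ¬ q ^ 2 ∣ N →
    ∀ A : ValuationSubring (AlgebraicClosure ℚ), A.LiesOverPrime q →
      ∀ σ : GQ, A.IsFrobeniusAt σ q →
        (ρ σ * ρ σ - ((q : 𝒪) * (q : 𝒪)) • (1 : Module.End 𝒪 Λ)) * (ρ σ * ρ σ - 1) = 0

/-- The Galois representation attached to a `FrobLattice` with the quartic identity: besides the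
two clauses of S30 it satisfies clause 2 of S35. -/
theorem exists_galoisRepAdic_of_frobLattice_quartic (hdens : F3.FrobDensityLite) (hpS : p ∈ S)
    (a : ℕ → 𝒪) (L : FrobLattice p N S 𝒪 a) (E : CycloCharData p 𝒪)
    (hL : FrobQuartic p N L.ρ) :
    ∃ ρ : GaloisRepAdic 𝒪,
      (∀ ℓ : ℕ, ℓ.Prime → ℓ ∉ S →
        ∀ A : ValuationSubring (AlgebraicClosure ℚ), A.LiesOverPrime ℓ →
          ∀ σ : GQ, A.IsFrobeniusAt σ ℓ →
            LinearMap.charpoly (ρ.ρ σ) = X ^ 2 - C (a ℓ) * X + C ((ℓ : 𝒪))) ∧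
      (∀ q : ℕ, q.Prime → ¬ q ∣ N → q ≠ p → ρ.IsUnramifiedAt q) ∧
      (∀ q : ℕ, q.Prime → q ≠ p → q ∣ N → ¬ q ^ 2 ∣ N →
        ∀ A : ValuationSubring (AlgebraicClosure ℚ), A.LiesOverPrime q →
          ∀ σ : GQ, A.IsFrobeniusAt σ q →
            LinearMap.charpoly (ρ.ρ σ) = X ^ 2 - C ((q : 𝒪) + 1) * X + C ((q : 𝒪)) ∨
            LinearMap.charpoly (ρ.ρ σ) = X ^ 2 + C ((q : 𝒪) + 1) * X + C ((q : 𝒪))) := by
  obtain ⟨t, hQ, ht⟩ := exists_quadRel_of_frobLattice hdens hpS a L E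
  obtain ⟨V, iV1, iV2, iV3, iV4, ρ', hfin, hchar, hcont, hker⟩ :=
    repConclusion_of_quadRel L.ρ E.ε t hQ complexConjugation complexConjugation_mul_self E.conj
  have hadic : GaloisActionIsAdicContinuous 𝒪 ρ' := by
    intro n
    obtain ⟨L₁, hL₁fin, hL₁⟩ := L.cont n
    obtain ⟨L₂, hL₂fin, hL₂⟩ := E.level n
    refine ⟨L₁ ⊔ L₂, IntermediateField.finiteDimensional_sup L₁ L₂, ?_⟩
    intro σ hσ v
    exact hcont n σ (hL₁ σ (fun x hx => hσ x (le_sup_left (a := L₁) (b := L₂) hx)))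
      (hL₂ σ (fun x hx => hσ x (le_sup_right (a := L₁) (b := L₂) hx))) v
  refine ⟨{ V := V, finrank_eq := hfin, ρ := ρ', isAdicContinuous := hadic }, ?_, ?_, ?_⟩
  · intro ℓ hℓ hℓS A hA σ hσ
    have hℓp : ℓ ≠ p := fun h => hℓS (h ▸ hpS)
    show LinearMap.charpoly (ρ' σ) = _
    rw [hchar σ, ht ℓ hℓ hℓS A hA σ hσ, E.frob ℓ hℓ hℓp A hA σ hσ]
  · intro q hq hqN hqp P hP σ hσ
    show ρ' σ = 1
    exact hker σ (L.unram q hq hqN hqp P hP σ hσ) (E.inertia q hq hqp P hP σ hσ)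
  · intro q hq hqp hqN hq2 A hA σ hσ
    show LinearMap.charpoly (ρ' σ) = _ ∨ LinearMap.charpoly (ρ' σ) = _
    have hε : ((E.ε σ : 𝒪ˣ) : 𝒪) = (q : 𝒪) := E.frob q hq hqp A hA σ hσ
    have hq0 : (q : 𝒪) ≠ 0 := Nat.cast_ne_zero.mpr hq.ne_zero
    have h1 := hQ σ
    rw [hε] at h1
    rcases trace_eq_of_quartic hq0 h1 (hL q hq hqp hqN hq2 A hA σ hσ) with h | h
    · left
      rw [hchar σ, hε, h]
    · right
      rw [hchar σ, hε, h, map_neg, neg_mul, sub_neg_eq_add]

end Lattice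

/-! ### S35 from the lattice -/

/-- The frozen statement of S35, as a proposition. -/
def S35Statement : Prop :=
  ∀ {M : ℕ} [NeZero M] {g : CuspForm (CongruenceSubgroup.Gamma0 M) 2} (_hg : g.IsNewform)
    (lam : ℕ) [Fact lam.Prime]
    (S : Finset ℕ)
    (O' : Type) [CommRing O'] [IsDomain O'] [IsDiscreteValuationRing O']
    [IsAdicComplete (IsLocalRing.maximalIdeal O') O'] [Finite (IsLocalRing.ResidueField O')]
    [CharZero O'] (_hlamO' : (lam : O') ∈ IsLocalRing.maximalIdeal O')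
    (chig : CuspForm.heckeAlgebra M 2 (↑S : Set ℕ) →+* ℂ)
    (_hchig : ∀ (ℓ : ℕ) (hℓ : ℓ.Prime) (hℓM : ¬ ℓ ∣ M) (hℓS : ℓ ∉ (↑S : Set ℕ)),
      chig (CuspForm.heckeAlgebra.T hℓ hℓM hℓS) = ModularFormClass.qCoeff g ℓ)
    (iota : chig.range →+* O')
    (_hlamS : lam ∈ S) (_hMS : ∀ q : ℕ, q.Prime → q ∣ M → q ∈ S),
    ∃ (O'' : Type) (_ : CommRing O'') (_ : IsDomain O'') (_ : IsDiscreteValuationRing O'')
      (_ : IsAdicComplete (IsLocalRing.maximalIdeal O'') O'')
      (_ : Finite (IsLocalRing.ResidueField O''))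
      (_ : CharZero O'') (_ : Algebra O' O'') (_ : Module.Finite O' O'')
      (_ : IsLocalHom (algebraMap O' O'')),
      Function.Injective (algebraMap O' O'') ∧
      ∃ ρ : GaloisRepAdic O'',
        (∀ (ℓ : ℕ) (hℓ : ℓ.Prime) (hℓM : ¬ ℓ ∣ M) (hℓS : ℓ ∉ (↑S : Set ℕ)),
          ∀ A : ValuationSubring (AlgebraicClosure ℚ), A.LiesOverPrime ℓ →
            ∀ σ : AlgebraicClosure ℚ ≃ₐ[ℚ] AlgebraicClosure ℚ, A.IsFrobeniusAt σ ℓ →
              LinearMap.charpoly (ρ.ρ σ) =
                X ^ 2 - C (algebraMap O' O'' ((iota.comp chig.rangeRestrict)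
                  (CuspForm.heckeAlgebra.T hℓ hℓM hℓS))) * X
                  + C ((ℓ : O''))) ∧
        (∀ q : ℕ, q.Prime → q ≠ lam → q ∣ M → ¬ q ^ 2 ∣ M →
          ∀ A : ValuationSubring (AlgebraicClosure ℚ), A.LiesOverPrime q →
            ∀ σ : AlgebraicClosure ℚ ≃ₐ[ℚ] AlgebraicClosure ℚ, A.IsFrobeniusAt σ q →
              LinearMap.charpoly (ρ.ρ σ) = X ^ 2 - C ((q : O'') + 1) * X + C ((q : O'')) ∨
              LinearMap.charpoly (ρ.ρ σ) = X ^ 2 + C ((q : O'') + 1) * X + C ((q : O'')))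

/-- **The lattice input of S35**: for a newform `g` of level `M` and a point `ι ∘ χ_g` of the
Hecke algebra there is a `FrobLattice` on which the Frobenius lifts at the primes `q ‖ M`,
`q ≠ λ`, satisfy the quartic identity. -/
def S35LatticeInput : Prop :=
  ∀ {M : ℕ} [NeZero M] {g : CuspForm (CongruenceSubgroup.Gamma0 M) 2} (_hg : g.IsNewform)
    (lam : ℕ) [Fact lam.Prime]
    (S : Finset ℕ)
    (O' : Type) [CommRing O'] [IsDomain O'] [IsDiscreteValuationRing O']
    [IsAdicComplete (IsLocalRing.maximalIdeal O') O'] [Finite (IsLocalRing.ResidueField O')]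
    [CharZero O'] (_hlamO' : (lam : O') ∈ IsLocalRing.maximalIdeal O')
    (chig : CuspForm.heckeAlgebra M 2 (↑S : Set ℕ) →+* ℂ)
    (_hchig : ∀ (ℓ : ℕ) (hℓ : ℓ.Prime) (hℓM : ¬ ℓ ∣ M) (hℓS : ℓ ∉ (↑S : Set ℕ)),
      chig (CuspForm.heckeAlgebra.T hℓ hℓM hℓS) = ModularFormClass.qCoeff g ℓ)
    (iota : chig.range →+* O')
    (_hlamS : lam ∈ S) (_hMS : ∀ q : ℕ, q.Prime → q ∣ M → q ∈ S),
    ∃ L : FrobLattice lam M S O' (heckeEigenvalue (iota.comp chig.rangeRestrict)),
      FrobQuartic lam M L.ρ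

/-- **S35 from the lattice input** (Frobenius density and the cyclotomic character are taken as
hypotheses here; both are unconditional, see `S30/Final.lean`). -/
theorem s35Statement_of_lattice (hdens : F3.FrobDensityLite)
    (hcyc : ∀ (p : ℕ) [Fact p.Prime] (𝒪 : Type) [CommRing 𝒪] [IsDomain 𝒪]
      [IsDiscreteValuationRing 𝒪] [IsAdicComplete (maximalIdeal 𝒪) 𝒪]
      [Finite (ResidueField 𝒪)] [CharZero 𝒪], (p : 𝒪) ∈ maximalIdeal 𝒪 →
      Nonempty (CycloCharData p 𝒪))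
    (hlat : S35LatticeInput) : S35Statement := by
  intro M _ g hg lam _ S O' _ _ _ _ _ _ hlamO' chig hchig iota hlamS hMS
  obtain ⟨E⟩ := hcyc lam O' hlamO'
  obtain ⟨L, hL⟩ := hlat hg lam S O' hlamO' chig hchig iota hlamS hMS
  obtain ⟨ρ, hρ, -, hρ2⟩ := exists_galoisRepAdic_of_frobLattice_quartic hdens
    hlamS (heckeEigenvalue (iota.comp chig.rangeRestrict)) L E hL
  refine ⟨O', inferInstance, inferInstance, inferInstance, inferInstance, inferInstance,
    inferInstance, Algebra.id O', inferInstance, ?_, Function.injective_id, ρ, ?_, hρ2⟩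
  · exact ⟨fun _ h => h⟩
  · intro ℓ hℓ hℓM hℓS A hA σ hσ
    have hℓS' : ℓ ∉ S := fun h => hℓS (Finset.mem_coe.mpr h)
    rw [hρ ℓ hℓ hℓS' A hA σ hσ, heckeEigenvalue_eq (iota.comp chig.rangeRestrict) hℓ hℓM hℓS]
    rfl

end Fermat.Agent.S35
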