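import Fermat.Agent.S30.TateAbstract

/-!
# The eigen-lattice of the S30 core, with the TRANSFER principle
(owner: helper62; bridge between cluster T = bad reduction and S34 / S35)

`Fermat.Agent.S30Tate.exists_eigenLattice` constructs the `c`-eigenpart `Λ` of the `p`-adic
Tate module of `O ⊗ J` (abstract `J`, `G`, `T i`).  Here we prove the same statement with one
more clause, the

**transfer principle**: every identity `∑ aᵢ gᵢ = 0` (`aᵢ ∈ ℤ`, `gᵢ ∈ G`; a `List (ℤ × G)`)
which holds on `J[p ^ n]` for all `n` holds on `Λ`  (`exists_eigenLattice_transfer`).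

So statements on the torsion such as `(σ - 1)² = 0` or `(φ² - q²)(φ² - 1) = 0` pass to `Λ`.
Example: `(φ² - q²)(φ² - 1) = φ⁴ - (q² + 1) φ² + q²` is the list
`[(1, φ ^ 4), (-(q ^ 2 + 1), φ ^ 2), (q ^ 2, 1)]`.
-/

set_option autoImplicit false
set_option linter.unusedSectionVars false
set_option linter.style.haveILetI false

noncomputable section

namespace Fermat.Agent.S35

open IsLocalRing Fermat.Agent.S30Tate
open scoped TensorProduct

/-! ### abstract part -/

section Abstract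

variable (O : Type*) [CommRing O] {J : Type*} [AddCommGroup J]
  {G : Type*} [Group G] [DistribMulAction G J]

/-- The `ℤ`-linear endomorphism `∑ aᵢ gᵢ` of `J`. -/
def listLinZ (l : List (ℤ × G)) : J →ₗ[ℤ] J :=
  (l.map fun ag => ag.1 • galLinZ J ag.2).sum

theorem listLinZ_nil : listLinZ (J := J) ([] : List (ℤ × G)) = 0 := rfl

theorem listLinZ_cons (ag : ℤ × G) (l : List (ℤ × G)) :
    listLinZ (J := J) (ag :: l) = ag.1 • galLinZ J ag.2 + listLinZ l := by
  unfold listLinZ
  rw [List.map_cons, List.sum_cons]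

theorem listLinZ_apply (l : List (ℤ × G)) (x : J) :
    listLinZ l x = (l.map fun ag => ag.1 • (ag.2 • x)).sum := by
  induction l with
  | nil => simp [listLinZ_nil]
  | cons ag l ih =>
    rw [listLinZ_cons, LinearMap.add_apply, ih, List.map_cons, List.sum_cons,
      LinearMap.smul_apply, galLinZ_apply]

theorem listLinZ_baseChange (l : List (ℤ × G)) (m : O ⊗[ℤ] J) :
    (listLinZ (J := J) l).baseChange O m = (l.map fun ag => ag.1 • galBC O J ag.2 m).sum := by
  induction l with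
  | nil => simp [listLinZ_nil]
  | cons ag l ih =>
    rw [listLinZ_cons, LinearMap.baseChange_add, LinearMap.add_apply, ih, List.map_cons,
      List.sum_cons, LinearMap.baseChange_smul, LinearMap.smul_apply, galBC_apply]

variable [Module.Flat ℤ O]

/-- An identity `∑ aᵢ gᵢ = 0` on `J[n]` holds on `(O ⊗ J)[n]`. -/
theorem galBC_list_eq_zero (n : ℕ) (l : List (ℤ × G))
    (h : ∀ x : J, n • x = 0 → (l.map fun ag => ag.1 • (ag.2 • x)).sum = 0)
    (m : O ⊗[ℤ] J) (hm : (n : O) • m = 0) :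
    (l.map fun ag => ag.1 • galBC O J ag.2 m).sum = 0 := by
  rw [← listLinZ_baseChange]
  exact baseChange_eq_zero_of_torsion O n (listLinZ l)
    (fun x hx => by rw [listLinZ_apply]; exact h x hx) m hm

end Abstract

section AbstractTate

variable {O : Type*} [CommRing O] {π : O} {M : Type*} [AddCommGroup M] [Module O M]
  {ι : Type*} {h : ι → Module.End O M} {c : ι → O}
  {G : Type*} [Group G] (g : G →* Module.End O M)
  (hcomm : ∀ σ i m, h i (g σ m) = g σ (h i m))

theorem list_sum_eigenTateRep_apply (l : List (ℤ × G)) (x : eigenTate π h c) (n : ℕ) :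
    ((l.map fun ag => ag.1 • eigenTateRep (π := π) (c := c) g hcomm ag.2).sum x).1 n
      = (l.map fun ag => ag.1 • g ag.2 (x.1 n)).sum := by
  induction l with
  | nil => simp
  | cons ag l ih =>
    rw [List.map_cons, List.sum_cons, LinearMap.add_apply, List.map_cons, List.sum_cons, ← ih]
    rfl

/-- **Transfer principle**, abstract form. -/
theorem eigenTateRep_list_eq_zero (l : List (ℤ × G))
    (hl : ∀ (n : ℕ) (m : M), π ^ n • m = 0 → (l.map fun ag => ag.1 • g ag.2 m).sum = 0) :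
    (l.map fun ag => ag.1 • eigenTateRep (π := π) (c := c) g hcomm ag.2).sum = 0 := by
  apply LinearMap.ext
  intro x
  apply Subtype.ext
  funext n
  rw [list_sum_eigenTateRep_apply]
  exact hl n _ (eigenTate_pow_smul_self x n)

end AbstractTate

/-! ### the eigen-lattice with the transfer principle -/

/-- **W1 with TRANSFER, abstract form.**  This is `S30Tate.exists_eigenLattice` with one more
clause: every identity `∑ aᵢ gᵢ = 0` which holds on all `J[p ^ n]` holds on the lattice. -/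
theorem exists_eigenLattice_transfer
    {O : Type} [CommRing O] [IsDomain O] [IsDiscreteValuationRing O]
    [IsAdicComplete (maximalIdeal O) O] [CharZero O]
    {p : ℕ} (hp : p.Prime) (hpO : (p : O) ∈ maximalIdeal O)
    {J : Type} [AddCommGroup J] {G : Type} [Group G] [DistribMulAction G J]
    {ι : Type} (T : ι → Module.End ℤ J) (c : ι → O)
    (hT : ∀ i (σ : G) (x : J), T i (σ • x) = σ • T i x)
    (hfin : {x : J | p • x = 0}.Finite)
    (μ : ∀ n, Submodule.torsionBy ℤ J ((p ^ (n + 1) : ℕ) : ℤ) →ₗ[ℤ]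
      Submodule.torsionBy ℤ J ((p ^ n : ℕ) : ℤ))
    (hμ : ∀ n (y : Submodule.torsionBy ℤ J ((p ^ (n + 1) : ℕ) : ℤ)),
      ((μ n y : Submodule.torsionBy ℤ J ((p ^ n : ℕ) : ℤ)) : J) = (p : ℤ) • (y : J))
    (Tt : ∀ (_ : ι) (n : ℕ), Submodule.torsionBy ℤ J ((p ^ n : ℕ) : ℤ) →ₗ[ℤ]
      Submodule.torsionBy ℤ J ((p ^ n : ℕ) : ℤ))
    (hTt : ∀ i n (y : Submodule.torsionBy ℤ J ((p ^ n : ℕ) : ℤ)),
      ((Tt i n y : Submodule.torsionBy ℤ J ((p ^ n : ℕ) : ℤ)) : J) = T i (y : J))
    (x : (n : ℕ) → O ⊗[ℤ] Submodule.torsionBy ℤ J ((p ^ n : ℕ) : ℤ))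
    (hx0 : ∃ n, x n ≠ 0)
    (hcompat : ∀ n, (μ n).baseChange O (x (n + 1)) = x n)
    (heig : ∀ i n, (Tt i n).baseChange O (x n) = c i • x n) :
    ∃ (Λ : Type) (_ : AddCommGroup Λ) (_ : Module O Λ) (_ : Module.Free O Λ)
      (_ : Module.Finite O Λ) (_ : Nontrivial Λ) (ρ : G →* Module.End O Λ),
      (∀ (n : ℕ) (σ : G), (∀ y : J, p ^ n • y = 0 → σ • y = y) →
          ∀ v : Λ, ρ σ v - v ∈ (maximalIdeal O ^ n) • (⊤ : Submodule O Λ)) ∧
      (∀ σ : G, (∀ (n : ℕ) (y : J), p ^ n • y = 0 → σ • y = y) → ρ σ = 1) ∧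
      (∀ (σ : G) (i : ι) (ℓ : ℕ),
          (∀ (n : ℕ) (y : J), p ^ n • y = 0 → σ • σ • y - T i (σ • y) + ℓ • y = 0) →
          ρ σ * ρ σ - c i • ρ σ + (ℓ : O) • (1 : Module.End O Λ) = 0) ∧
      (∀ l : List (ℤ × G),
          (∀ (n : ℕ) (y : J), p ^ n • y = 0 → (l.map fun ag => ag.1 • (ag.2 • y)).sum = 0) →
          (l.map fun ag => ag.1 • ρ ag.2).sum = 0) := by
  have hπ0 : (p : O) ≠ 0 := Nat.cast_ne_zero.mpr hp.ne_zero
  have hfg : (Submodule.torsionBy O (O ⊗[ℤ] J) (p : O)).FG := torsionBy_tensor_fg O p hfin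
  have hcomm : ∀ (σ : G) (i : ι) (m : O ⊗[ℤ] J),
      (T i).baseChange O (galBC O J σ m) = galBC O J σ ((T i).baseChange O m) :=
    fun σ i m => galBC_comm O (T i) (hT i) σ m
  have hcast : ∀ (n : ℕ) (m : O ⊗[ℤ] J), (p : O) ^ n • m = 0 →
      ((p ^ n : ℕ) : O) • m = 0 := fun n m hm => by
    rw [Nat.cast_pow]; exact hm
  obtain ⟨X, hX, hXne⟩ := exists_mem_eigenTate_ne_zero T c μ hμ Tt hTt x hx0 hcompat heig
  refine ⟨eigenTate (p : O) (fun i => (T i).baseChange O) c, inferInstance, inferInstance,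
    eigenTate_free hpO hπ0 hfg, eigenTate_finite hpO hπ0 hfg,
    ⟨⟨⟨X, hX⟩, 0, fun h => hXne (congrArg Subtype.val h)⟩⟩,
    eigenTateRep (galBC O J) hcomm, ?_, ?_, ?_, ?_⟩
  · intro n σ hfix v
    exact eigenTateRep_sub_mem (galBC O J) hcomm hpO hπ0
      (fun m hm => galBC_fix O (p ^ n) σ hfix m (hcast n m hm)) v
  · intro σ hfix
    apply eigenTateRep_eq_one
    intro n m hm
    exact galBC_fix O (p ^ n) σ (hfix n) m (hcast n m hm)
  · intro σ i ℓ hq
    exact eigenTateRep_quadratic (h := fun i => (T i).baseChange O) (galBC O J) hcomm i (ℓ : O)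
      (fun n m hm => galBC_quadratic O (p ^ n) σ (T i) ℓ (hq n) m (hcast n m hm))
  · intro l hl
    apply eigenTateRep_list_eq_zero
    intro n m hm
    exact galBC_list_eq_zero O (p ^ n) l (hl n) m (hcast n m hm)

end Fermat.Agent.S35
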